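/-
Row S15, node DESC, tower COUNT for `r = 2` (helper111): PURE ALGEBRA (Mathlib only).
Blueprint: `coord/S15-COUNT2-helper111.md`.

* `exists_four_torsion_sub_eq`  (LOC-∞, abstract): on a `2`-divisible abelian group with an additive
  involution `c`, every `y` with `c (2y) = 2y` has `c y - y = c z - z` for some `z` killed by `4`.
* `card_sq_le_of_isotropic`  (isotropic subgroups of a non-degenerate pairing into `ZMod n`;
  the pairing is a plain function, additive only on the relevant subgroups).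
* `pairing_sub_sub_eq_zero`  (`(c - 1) E` is isotropic for a `c`-anti-invariant pairing).
* `card_sq_le_of_tower`  (SAT): the saturation count.
-/
import Mathlib

set_option autoImplicit false

namespace Fermat.Agent.S15.H111

section LocInfty

variable {J : Type*} [AddCommGroup J]

/-- **LOC-∞, abstract form.**  `J` a `2`-divisible abelian group, `c` an additive involution,
`c (2 y) = 2 y`.  Then `c y - y = c z - z` for some `z` with `4 z = 0`. -/
theorem exists_four_torsion_sub_eq (c : J →+ J) (hc : ∀ x, c (c x) = x)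
    (hdiv : ∀ x : J, ∃ y : J, 2 • y = x) (y : J) (hy : c (2 • y) = 2 • y) :
    ∃ z : J, 4 • z = 0 ∧ c z - z = c y - y := by
  obtain ⟨y', hy'⟩ := hdiv y
  have hcy : 2 • c y = 2 • y := by rw [← map_nsmul, hy]
  have hcy' : 2 • c y' = c y := by rw [← map_nsmul, hy']
  refine ⟨y - (y' + c y'), ?_, ?_⟩
  · have h1 : 2 • (y - (y' + c y')) = y - c y := by
      rw [smul_sub, smul_add, hy', hcy', two_nsmul]; abel
    have h4 : (4 : ℕ) • (y - (y' + c y')) = 2 • (2 • (y - (y' + c y'))) := by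
      rw [← mul_nsmul]
    rw [h4, h1, smul_sub, hcy, sub_self]
  · rw [map_sub, map_add, hc]
    abel

end LocInfty

section Isotropic

open Function

/-- **Isotropic subgroups of a non-degenerate pairing into `ZMod n` are small.**
`B` is a plain function, additive in each variable on `E × Y`; `Y ≤ E` is isotropic and the pairing
`E × Y → ZMod n` has trivial right kernel. -/
theorem card_sq_le_of_isotropic {X : Type*} [AddCommGroup X] {n : ℕ} [NeZero n]
    (B : X → X → ZMod n) (E Y : AddSubgroup X) [Finite E] (hYE : Y ≤ E)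
    (hl : ∀ x ∈ E, ∀ x' ∈ E, ∀ y ∈ Y, B (x + x') y = B x y + B x' y)
    (hr : ∀ x ∈ E, ∀ y ∈ Y, ∀ y' ∈ Y, B x (y + y') = B x y + B x y')
    (hiso : ∀ y ∈ Y, ∀ y' ∈ Y, B y y' = 0)
    (hnd : ∀ y ∈ Y, (∀ x ∈ E, B x y = 0) → y = 0) :
    Nat.card Y ^ 2 ≤ Nat.card E := by
  classical
  have : Finite Y := Finite.of_injective (fun y : Y => (⟨y, hYE y.2⟩ : E))
    (fun a b h => Subtype.ext (congrArg (fun e : E => (e : X)) h))
  have hl0 : ∀ y ∈ Y, B 0 y = 0 := fun y hy => by
    have := hl 0 E.zero_mem 0 E.zero_mem y hy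
    rw [add_zero] at this
    exact left_eq_add.mp this
  let Φ : E →+ (Y → ZMod n) :=
    { toFun := fun x y => B (x : X) (y : X)
      map_zero' := by funext y; exact hl0 y y.2
      map_add' := fun x x' => by funext y; exact hl x x.2 x' x'.2 y y.2 }
  have h1 : Nat.card Φ.ker * Nat.card Φ.range = Nat.card E := by
    rw [← AddSubgroup.index_ker]; exact AddSubgroup.card_mul_index _
  have h2 : Nat.card Y ≤ Nat.card Φ.ker := by
    refine Nat.card_le_card_of_injective
      (fun y : Y => (⟨⟨y, hYE y.2⟩, ?_⟩ : Φ.ker)) ?_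
    · rw [AddMonoidHom.mem_ker]
      funext y'
      exact hiso y y.2 y' y'.2
    · intro a b h
      have := congrArg (fun e : Φ.ker => ((e : E) : X)) h
      exact Subtype.ext this
  have h3 : Nat.card Y ≤ Nat.card Φ.range := by
    let ev : Y → AddChar Φ.range ℂ := fun y =>
      { toFun := fun h => ZMod.stdAddChar ((h : Y → ZMod n) y)
        map_zero_eq_one' := by simp
        map_add_eq_mul' := fun h h' => by
          simp [AddChar.map_add_eq_mul] }
    have hev : Injective ev := by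
      intro y y' hyy'
      have hsub : ((y : X) - (y' : X)) = 0 := by
        refine hnd _ (Y.sub_mem y.2 y'.2) fun x hx => ?_
        have := congrArg (fun ψ : AddChar Φ.range ℂ => ψ ⟨Φ ⟨x, hx⟩, ⟨⟨x, hx⟩, rfl⟩⟩) hyy'
        have h' : ZMod.stdAddChar (B x (y : X)) = ZMod.stdAddChar (B x (y' : X)) := this
        have h'' := ZMod.injective_stdAddChar h'
        have h3 := hr x hx ((y : X) - (y' : X)) (Y.sub_mem y.2 y'.2) (y' : X) y'.2
        rw [sub_add_cancel, h''] at h3
        exact right_eq_add.mp h3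
      exact Subtype.ext (sub_eq_zero.mp hsub)
    let _ : Fintype Φ.range := Fintype.ofFinite _
    calc Nat.card Y ≤ Nat.card (AddChar Φ.range ℂ) := Nat.card_le_card_of_injective ev hev
      _ = Fintype.card (AddChar Φ.range ℂ) := Nat.card_eq_fintype_card
      _ ≤ Fintype.card Φ.range := AddChar.card_addChar_le _ _
      _ = Nat.card Φ.range := Nat.card_eq_fintype_card.symm
  calc Nat.card Y ^ 2 = Nat.card Y * Nat.card Y := sq _
    _ ≤ Nat.card Φ.ker * Nat.card Φ.range := Nat.mul_le_mul h2 h3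
    _ = Nat.card E := h1

/-- The image of `c - 1` is isotropic for a `c`-anti-invariant pairing (`c` an involution);
`B` a plain function, bi-additive on the `c`-stable subgroup `E`. -/
theorem pairing_sub_sub_eq_zero {X A : Type*} [AddCommGroup X] [AddCommGroup A]
    (B : X → X → A) (E : AddSubgroup X) (c : X →+ X) (hc : ∀ x, c (c x) = x)
    (hcE : ∀ x ∈ E, c x ∈ E)
    (hl : ∀ x ∈ E, ∀ x' ∈ E, ∀ y ∈ E, B (x + x') y = B x y + B x' y)
    (hr : ∀ x ∈ E, ∀ y ∈ E, ∀ y' ∈ E, B x (y + y') = B x y + B x y')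
    (hcB : ∀ x ∈ E, ∀ y ∈ E, B (c x) (c y) = - B x y) (x y : X) (hx : x ∈ E) (hy : y ∈ E) :
    B (c x - x) (c y - y) = 0 := by
  have hcx := hcE x hx
  have hcy := hcE y hy
  have h1 : B x (c y) = - B (c x) y := by
    have h := hcB x hx (c y) hcy
    rw [hc] at h
    rw [h, neg_neg]
  -- expand in the second variable
  have e1 : ∀ u ∈ E, B u (c y) = B u (c y - y) + B u y := fun u hu => by
    have := hr u hu (c y - y) (E.sub_mem hcy hy) y hy
    rwa [sub_add_cancel] at this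
  have e2 : ∀ v ∈ E, B (c x) v = B (c x - x) v + B x v := fun v hv => by
    have := hl (c x - x) (E.sub_mem hcx hx) x hx v hv
    rwa [sub_add_cancel] at this
  have hcxy := hcB x hx y hy
  -- B (cx) (cy) = B (cx - x) (cy) + B x (cy) = B(cx - x)(cy - y) + B (cx - x) y + B x (cy)
  have a1 := e2 (c y) hcy
  have a2 := e1 (c x - x) (E.sub_mem hcx hx)
  have a3 := e2 y hy
  -- B (cx - x) y = B (cx) y - B x y
  have : B (c x - x) (c y - y) = B (c x) (c y) - B x (c y) - (B (c x) y - B x y) := by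
    rw [a1, a2, a3]; abel
  rw [this, hcxy, h1]
  abel

end Isotropic

section Sat

variable {M : Type*} [AddCommGroup M]

/-- The `2 ^ k`-torsion subgroup. -/
def tk (M : Type*) [AddCommGroup M] (k : ℕ) : AddSubgroup M :=
  (nsmulAddMonoidHom (α := M) (2 ^ k)).ker

theorem mem_tk {k : ℕ} {x : M} : x ∈ tk M k ↔ 2 ^ k • x = 0 := by
  rw [tk, AddMonoidHom.mem_ker]; rfl

theorem tk_mono {k l : ℕ} (h : k ≤ l) : tk M k ≤ tk M l := by
  intro x hx
  rw [mem_tk] at hx ⊢
  obtain ⟨m, rfl⟩ := Nat.exists_eq_add_of_le h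
  rw [pow_add, mul_nsmul, hx, smul_zero]

/-- `|H| = |H ∩ ker f| * |f(H)|`. -/
theorem card_eq_card_inf_ker_mul_card_map {N : Type*} [AddCommGroup N] (f : M →+ N)
    (H : AddSubgroup M) :
    Nat.card H = Nat.card ↥(H ⊓ f.ker) * Nat.card ↥(H.map f) := by
  let g : H →+ N := f.comp H.subtype
  have h1 : Nat.card g.ker * Nat.card g.range = Nat.card H := by
    rw [← AddSubgroup.index_ker]; exact AddSubgroup.card_mul_index _
  have h2 : g.range = H.map f := by
    ext y
    constructor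
    · rintro ⟨x, rfl⟩
      exact ⟨x, x.2, rfl⟩
    · rintro ⟨x, hx, rfl⟩
      exact ⟨⟨x, hx⟩, rfl⟩
  have h3 : Nat.card g.ker = Nat.card ↥(H ⊓ f.ker) := by
    refine Nat.card_congr
      { toFun := fun x => ⟨(x : H), ⟨(x : H).2, x.2⟩⟩
        invFun := fun x => ⟨⟨x, x.2.1⟩, x.2.2⟩
        left_inv := fun x => rfl
        right_inv := fun x => rfl }
  rw [← h1, h2, h3]

theorem le_of_forall_pow_le_pow_succ {a b : ℕ} (hb : 0 < b) (h : ∀ k : ℕ, a ^ k ≤ b ^ (k + 1)) :
    a ≤ b := by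
  by_contra hab
  rw [not_le] at hab
  have hb' : (0 : ℝ) < b := by exact_mod_cast hb
  have h1 : (1 : ℝ) < (a : ℝ) / b := by
    rw [one_lt_div hb']
    exact_mod_cast hab
  obtain ⟨n, hn⟩ := pow_unbounded_of_one_lt (b : ℝ) h1
  have h2 : ((a : ℝ) / b) ^ n ≤ b := by
    rw [div_pow, div_le_iff₀ (pow_pos hb' n)]
    have := h n
    have h3 : ((a ^ n : ℕ) : ℝ) ≤ ((b ^ (n + 1) : ℕ) : ℝ) := by exact_mod_cast this
    push_cast at h3
    calc (a : ℝ) ^ n ≤ (b : ℝ) ^ (n + 1) := h3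
      _ = b * b ^ n := by ring
  exact absurd hn (not_lt.mpr h2)

/-- **SAT (the saturation count).**  `E ≤ M` a subgroup stable under the additive endomorphism
`c`, whose `2`-power torsion is `2`-divisible (inside `E`) with finite `2 ^ k`-torsion.
If `|(c - 1) E[2^k]|² ≤ |E[2^k]|` for all `k`, then `U := (c - 1) E[4] ∩ M[2]` satisfies
`|U|² ≤ |E[2]|`. -/
theorem card_sq_le_of_tower (E : AddSubgroup M) (c : M →+ M) (hcE : ∀ x ∈ E, c x ∈ E)
    (hdiv : ∀ (k : ℕ) (x : M), x ∈ E → 2 ^ k • x = 0 → ∃ y ∈ E, 2 • y = x)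
    (hfin : ∀ k, Finite ↥(E ⊓ tk M k))
    (hiso : ∀ k, Nat.card ((E ⊓ tk M k).map (c - AddMonoidHom.id M)) ^ 2 ≤
      Nat.card ↥(E ⊓ tk M k)) :
    Nat.card ↥(((E ⊓ tk M 2).map (c - AddMonoidHom.id M)) ⊓ tk M 1) ^ 2 ≤
      Nat.card ↥(E ⊓ tk M 1) := by
  set d : M →+ M := c - AddMonoidHom.id M with hd
  set μ : M →+ M := nsmulAddMonoidHom (α := M) 2 with hμ
  have hμapp : ∀ x : M, μ x = 2 • x := fun x => rfl
  have hμker : μ.ker = tk M 1 := by
    ext x
    rw [AddMonoidHom.mem_ker, mem_tk, pow_one, hμapp]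
  have ha : ∀ k, (E ⊓ tk M (k + 1)).map μ = E ⊓ tk M k := by
    intro k
    ext x
    constructor
    · rintro ⟨y, ⟨hyE, hy⟩, rfl⟩
      replace hy : y ∈ tk M (k + 1) := hy
      replace hyE : y ∈ E := hyE
      rw [mem_tk] at hy
      refine AddSubgroup.mem_inf.mpr ⟨?_, ?_⟩
      · rw [hμapp]; exact E.nsmul_mem hyE 2
      · rw [mem_tk, hμapp, ← mul_nsmul, mul_comm, ← pow_succ]
        exact hy
    · rintro ⟨hxE, hx⟩
      replace hx : x ∈ tk M k := hx
      replace hxE : x ∈ E := hxE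
      rw [mem_tk] at hx
      obtain ⟨y, hyE, hy⟩ := hdiv k x hxE hx
      refine ⟨y, AddSubgroup.mem_inf.mpr ⟨hyE, ?_⟩, by rw [hμapp, hy]⟩
      rw [mem_tk, pow_succ, mul_comm, mul_nsmul, hy, hx]
  have hb : ∀ k, (E ⊓ tk M (k + 1)) ⊓ μ.ker = E ⊓ tk M 1 := by
    intro k
    rw [hμker, inf_assoc]
    congr 1
    exact inf_eq_right.mpr (tk_mono (by omega))
  have hc : ∀ k, Nat.card ↥(E ⊓ tk M k) = Nat.card ↥(E ⊓ tk M 1) ^ k := by
    intro k
    induction k with
    | zero =>
      rw [pow_zero]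
      have : E ⊓ tk M 0 = ⊥ := by
        ext x
        rw [AddSubgroup.mem_inf, mem_tk, pow_zero, one_nsmul, AddSubgroup.mem_bot]
        exact ⟨fun h => h.2, fun h => ⟨h ▸ E.zero_mem, h⟩⟩
      rw [this]
      exact AddSubgroup.card_bot
    | succ k ih =>
      rw [card_eq_card_inf_ker_mul_card_map μ (E ⊓ tk M (k + 1)), hb, ha, ih, pow_succ, mul_comm]
  have hdμ : ∀ x : M, d (μ x) = μ (d x) := fun x => by
    rw [hμapp, hμapp, map_nsmul]
  have hV : ∀ k, ((E ⊓ tk M (k + 1)).map d).map μ = (E ⊓ tk M k).map d := by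
    intro k
    rw [← ha k]
    ext x
    constructor
    · rintro ⟨y, ⟨z, hz, rfl⟩, rfl⟩
      exact ⟨μ z, ⟨z, hz, rfl⟩, hdμ z⟩
    · rintro ⟨y, ⟨z, hz, rfl⟩, rfl⟩
      exact ⟨d z, ⟨z, hz, rfl⟩, (hdμ z).symm⟩
  have hVle : ∀ k, (E ⊓ tk M k).map d ≤ E ⊓ tk M k := by
    intro k x
    rintro ⟨z, ⟨hzE, hz⟩, rfl⟩
    replace hz : z ∈ tk M k := hz
    replace hzE : z ∈ E := hzE
    rw [mem_tk] at hz
    refine AddSubgroup.mem_inf.mpr ⟨?_, ?_⟩
    · show (c - AddMonoidHom.id M) z ∈ E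
      rw [AddMonoidHom.sub_apply]
      exact E.sub_mem (hcE z hzE) hzE
    · rw [mem_tk, ← map_nsmul, hz, map_zero]
  have hVfin : ∀ k, Finite ((E ⊓ tk M k).map d) := fun k =>
    have := hfin k
    Finite.of_injective (fun x : (E ⊓ tk M k).map d => (⟨x, hVle k x.2⟩ : ↥(E ⊓ tk M k)))
      (fun a b h => Subtype.ext (congrArg (fun e : ↥(E ⊓ tk M k) => (e : M)) h))
  set U : AddSubgroup M := ((E ⊓ tk M 2).map d) ⊓ tk M 1 with hU
  have hg : ∀ k, Nat.card U ^ k ≤ Nat.card ((E ⊓ tk M (k + 1)).map d) := by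
    intro k
    induction k with
    | zero =>
      rw [pow_zero]
      have := hVfin 1
      exact Nat.card_pos
    | succ k ih =>
      have hle : U ≤ (E ⊓ tk M (k + 2)).map d ⊓ μ.ker := by
        rw [hμker]
        exact inf_le_inf_right _
          (AddSubgroup.map_mono (inf_le_inf_left _ (tk_mono (by omega))))
      have : Finite ↥((E ⊓ tk M (k + 2)).map d ⊓ μ.ker) := by
        have := hVfin (k + 2)
        exact Finite.of_injective
          (fun x : ↥((E ⊓ tk M (k + 2)).map d ⊓ μ.ker) =>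
            (⟨x, x.2.1⟩ : (E ⊓ tk M (k + 2)).map d))
          (fun a b h => Subtype.ext
            (congrArg (fun e : (E ⊓ tk M (k + 2)).map d => (e : M)) h))
      have h1 := AddSubgroup.card_le_of_le hle
      rw [card_eq_card_inf_ker_mul_card_map μ ((E ⊓ tk M (k + 2)).map d), hV (k + 1), pow_succ,
        mul_comm]
      exact Nat.mul_le_mul h1 ih
  have := hfin 1
  refine le_of_forall_pow_le_pow_succ Nat.card_pos fun k => ?_
  calc (Nat.card U ^ 2) ^ k = (Nat.card U ^ k) ^ 2 := by rw [← pow_mul, ← pow_mul, mul_comm]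
    _ ≤ Nat.card ((E ⊓ tk M (k + 1)).map d) ^ 2 := Nat.pow_le_pow_left (hg k) 2
    _ ≤ Nat.card ↥(E ⊓ tk M (k + 1)) := hiso (k + 1)
    _ = Nat.card ↥(E ⊓ tk M 1) ^ (k + 1) := hc (k + 1)

end Sat

end Fermat.Agent.S15.H111
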