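/-
Row S15, node DESC, tower COUNT for `r = 2` (helper111): the abstract Hecke-module form.
Blueprint: `coord/S15-COUNT2-helper111.md`.

Setting: `T` a commutative ring (good Hecke polynomial ring), `𝔪` an ideal (Eisenstein ideal),
`J` a `T`-module (`J₀(p)(ℚ̄)`), `c : J →ₗ[T] J` an involution (complex conjugation),
`E = H2.primaryPart 𝔪 J` (Eisenstein part), `tk J k = J[2^k]`.

* `IsGoodPairing T c k B` : the pairing hypothesis (PAIR_k) on `J[2^k]`.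
* `card_iso`      : (PAIR_k) ⇒ (ISO_k)  `|(c - 1) E[2^k]|² ≤ |E[2^k]|`.
* `card_uoo_sq_le`: (PAIR_k for all k) + `J = 2J` + finiteness ⇒ COUNT-2  `|U∞|² ≤ |E[2]|`,
  `U∞ = uoo 𝔪 c = (c - 1) E[4] ∩ J[2]`.
* `sub_mem_uoo`   : LOC-∞: `c (2y) = 2y`, `c y - y ∈ E` ⇒ `c y - y ∈ U∞`.
-/
import Fermat.Agent.S15.H111.Count2Alg
import Fermat.Agent.S15.H2.FiniteSplit

set_option autoImplicit false

namespace Fermat.Agent.S15.H111

open Fermat.Agent.S15.H2

variable (T : Type*) [CommRing T] (𝔪 : Ideal T) {J : Type*} [AddCommGroup J] [Module T J]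

/-- **(PAIR_k)**: `B` is a pairing on `J[2^k]` with values in `ℤ/2^k`: bi-additive, with trivial
right kernel, Hecke self-adjoint and anti-invariant under `c`.  (Values outside `J[2^k]` are junk.) -/
structure IsGoodPairing (c : J → J) (k : ℕ) (B : J → J → ZMod (2 ^ k)) : Prop where
  add_left : ∀ x ∈ tk J k, ∀ x' ∈ tk J k, ∀ y ∈ tk J k, B (x + x') y = B x y + B x' y
  add_right : ∀ x ∈ tk J k, ∀ y ∈ tk J k, ∀ y' ∈ tk J k, B x (y + y') = B x y + B x y'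
  nondeg : ∀ y ∈ tk J k, (∀ x ∈ tk J k, B x y = 0) → y = 0
  hecke : ∀ (t : T), ∀ x ∈ tk J k, ∀ y ∈ tk J k, B (t • x) y = B x (t • y)
  conj : ∀ x ∈ tk J k, ∀ y ∈ tk J k, B (c x) (c y) = - B x y

variable {T}

/-- `J[2^k]` as a `T`-submodule. -/
def tkSub (J : Type*) [AddCommGroup J] [Module T J] (k : ℕ) : Submodule T J where
  carrier := {x | 2 ^ k • x = 0}
  zero_mem' := smul_zero _
  add_mem' := fun {a b} ha hb => by
    show 2 ^ k • (a + b) = 0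
    rw [smul_add, ha, hb, add_zero]
  smul_mem' := fun t x hx => by
    show 2 ^ k • (t • x) = 0
    rw [smul_comm, hx, smul_zero]

theorem mem_tkSub {k : ℕ} {x : J} : x ∈ tkSub (T := T) J k ↔ 2 ^ k • x = 0 := Iff.rfl

theorem mem_tkSub_iff {k : ℕ} {x : J} : x ∈ tkSub (T := T) J k ↔ x ∈ tk J k := by
  rw [mem_tkSub, mem_tk]

/-- Membership in the primary part of the submodule `J[2^k]` is membership in the primary part
of `J`. -/
theorem coe_mem_primaryPart_iff {k : ℕ} (x : tkSub (T := T) J k) :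
    x ∈ primaryPart 𝔪 (tkSub (T := T) J k) ↔ (x : J) ∈ primaryPart 𝔪 J := by
  constructor
  · rintro ⟨n, hn⟩
    exact ⟨n, fun t ht => by
      have := congrArg (fun e : tkSub (T := T) J k => (e : J)) (hn t ht)
      simpa using this⟩
  · rintro ⟨n, hn⟩
    exact ⟨n, fun t ht => Subtype.ext (by simpa using hn t ht)⟩

/-- The Eisenstein part as an additive subgroup. -/
abbrev eis (J : Type*) [AddCommGroup J] [Module T J] : AddSubgroup J :=
  (primaryPart 𝔪 J).toAddSubgroup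

variable {𝔪}

theorem map_mem_eis (c : J →ₗ[T] J) {x : J} (hx : x ∈ eis 𝔪 J) : c x ∈ eis 𝔪 J := by
  obtain ⟨n, hn⟩ := hx
  exact ⟨n, fun t ht => by rw [← map_smul, hn t ht, map_zero]⟩

theorem map_mem_tk (c : J →+ J) {k : ℕ} {x : J} (hx : x ∈ tk J k) : c x ∈ tk J k := by
  rw [mem_tk] at hx ⊢
  rw [← map_nsmul, hx, map_zero]

/-- Projection to the Eisenstein part inside `J[2^k]`: for `x ∈ J[2^k]` there is `f ∈ T` such that
`x - f • x ∈ E` and `f • y = 0` for every `y ∈ E ∩ J[2^k]`. -/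
theorem exists_eis_projector (k : ℕ) [Finite ↥(tk J k)] :
    ∃ f : T, (∀ x ∈ tk J k, x - f • x ∈ eis 𝔪 J) ∧ ∀ y ∈ eis 𝔪 J, y ∈ tk J k → f • y = 0 := by
  have : Finite ↥(tkSub (T := T) J k) :=
    Finite.of_injective (fun x : tkSub (T := T) J k => (⟨x, mem_tkSub_iff.mp x.2⟩ : ↥(tk J k)))
      (fun a b h => Subtype.ext (congrArg (fun e : ↥(tk J k) => (e : J)) h))
  obtain ⟨K, f, hs⟩ := exists_isSplit 𝔪 (tkSub (T := T) J k)
  refine ⟨f, fun x hx => ?_, fun y hyE hy => ?_⟩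
  · have := hs.sub_smul_mem_primaryPart ⟨x, mem_tkSub_iff.mpr hx⟩
    rw [coe_mem_primaryPart_iff] at this
    simpa using this
  · have h1 : (⟨y, mem_tkSub_iff.mpr hy⟩ : tkSub (T := T) J k) ∈
        primaryPart 𝔪 (tkSub (T := T) J k) := by
      rw [coe_mem_primaryPart_iff]; exact hyE
    have h2 := (hs.mem_primaryPart_iff _).mp h1
    have := congrArg (fun e : tkSub (T := T) J k => (e : J)) h2
    simpa using this

/-- **(PAIR_k) ⇒ (ISO_k).** -/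
theorem card_iso (c : J →ₗ[T] J) (hc : ∀ x, c (c x) = x) (k : ℕ) [Finite ↥(tk J k)]
    (B : J → J → ZMod (2 ^ k)) (hB : IsGoodPairing T c k B) :
    Nat.card ((eis 𝔪 J ⊓ tk J k).map (c.toAddMonoidHom - AddMonoidHom.id J)) ^ 2 ≤
      Nat.card ↥(eis 𝔪 J ⊓ tk J k) := by
  set d : J →+ J := c.toAddMonoidHom - AddMonoidHom.id J with hd
  have hdapp : ∀ x, d x = c x - x := fun x => rfl
  have hfinE : Finite ↥(eis 𝔪 J ⊓ tk J k) :=
    Finite.of_injective (fun x : ↥(eis 𝔪 J ⊓ tk J k) => (⟨x, x.2.2⟩ : ↥(tk J k)))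
      (fun a b h => Subtype.ext (congrArg (fun e : ↥(tk J k) => (e : J)) h))
  have hYE : (eis 𝔪 J ⊓ tk J k).map d ≤ eis 𝔪 J ⊓ tk J k := by
    rintro _ ⟨z, hz, rfl⟩
    have hzE : z ∈ eis 𝔪 J := hz.1
    have hzt : z ∈ tk J k := hz.2
    rw [hdapp]
    exact AddSubgroup.mem_inf.mpr
      ⟨(eis 𝔪 J).sub_mem (map_mem_eis c hzE) hzE,
        (tk J k).sub_mem (map_mem_tk c.toAddMonoidHom hzt) hzt⟩
  have hYt : ∀ y ∈ (eis 𝔪 J ⊓ tk J k).map d, y ∈ tk J k := fun y hy => (hYE hy).2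
  have hEt : ∀ x ∈ eis 𝔪 J ⊓ tk J k, x ∈ tk J k := fun x hx => hx.2
  have hr0 : ∀ x ∈ tk J k, B x 0 = 0 := fun x hx => by
    have := hB.add_right x hx 0 (tk J k).zero_mem 0 (tk J k).zero_mem
    rw [add_zero] at this
    exact left_eq_add.mp this
  obtain ⟨f, hf1, hf2⟩ := exists_eis_projector (T := T) (𝔪 := 𝔪) (J := J) k
  refine card_sq_le_of_isotropic B (eis 𝔪 J ⊓ tk J k) ((eis 𝔪 J ⊓ tk J k).map d) hYE
    (fun x hx x' hx' y hy => hB.add_left x (hEt x hx) x' (hEt x' hx') y (hYt y hy))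
    (fun x hx y hy y' hy' => hB.add_right x (hEt x hx) y (hYt y hy) y' (hYt y' hy'))
    ?_ ?_
  · rintro _ ⟨z, hz, rfl⟩ _ ⟨z', hz', rfl⟩
    rw [hdapp, hdapp]
    exact pairing_sub_sub_eq_zero B (tk J k) c.toAddMonoidHom hc
      (fun x hx => map_mem_tk c.toAddMonoidHom hx) hB.add_left hB.add_right hB.conj z z'
      hz.2 hz'.2
  · intro y hy hzero
    have hyE := hYE hy
    refine hB.nondeg y hyE.2 fun x hx => ?_
    have hfx : f • x ∈ tk J k := by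
      rw [mem_tk] at hx ⊢
      rw [smul_comm, hx, smul_zero]
    have hx'' : x - f • x ∈ eis 𝔪 J ⊓ tk J k :=
      AddSubgroup.mem_inf.mpr ⟨hf1 x hx, (tk J k).sub_mem hx hfx⟩
    have h1 := hzero _ hx''
    have h2 := hB.add_left (x - f • x) hx''.2 (f • x) hfx y hyE.2
    rw [sub_add_cancel, h1, zero_add, hB.hecke f x hx y hyE.2, hf2 y hyE.1 hyE.2, hr0 x hx] at h2
    exact h2

/-- The subgroup `U∞ = (c - 1) E[4] ∩ J[2]`. -/
def uoo (𝔪 : Ideal T) (c : J →ₗ[T] J) : AddSubgroup J :=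
  ((eis 𝔪 J ⊓ tk J 2).map (c.toAddMonoidHom - AddMonoidHom.id J)) ⊓ tk J 1

theorem mem_uoo {c : J →ₗ[T] J} {v : J} :
    v ∈ uoo 𝔪 c ↔ (∃ z ∈ primaryPart 𝔪 J, 4 • z = 0 ∧ c z - z = v) ∧ 2 • v = 0 := by
  rw [uoo, AddSubgroup.mem_inf, mem_tk, pow_one]
  refine and_congr_left fun _ => ?_
  constructor
  · rintro ⟨z, hz, rfl⟩
    have hzE : z ∈ eis 𝔪 J := hz.1
    have hzt : z ∈ tk J 2 := hz.2
    rw [mem_tk] at hzt
    exact ⟨z, hzE, by simpa using hzt, rfl⟩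
  · rintro ⟨z, hzE, h4, rfl⟩
    exact ⟨z, AddSubgroup.mem_inf.mpr ⟨hzE, mem_tk.mpr (by simpa using h4)⟩, rfl⟩

/-- **COUNT-2 (abstract).**  If `J = 2J`, the groups `J[2^k]` are finite and carry good pairings,
then `|U∞|² ≤ |E[2]|`. -/
theorem card_uoo_sq_le (c : J →ₗ[T] J) (hc : ∀ x, c (c x) = x)
    (hdiv : ∀ x : J, ∃ y : J, 2 • y = x) (hfin : ∀ k, Finite ↥(tk J k))
    (hpair : ∀ k, ∃ B : J → J → ZMod (2 ^ k), IsGoodPairing T c k B) :
    Nat.card ↥(uoo 𝔪 c) ^ 2 ≤ Nat.card ↥(eis 𝔪 J ⊓ tk J 1) := by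
  refine card_sq_le_of_tower (eis 𝔪 J) c.toAddMonoidHom (fun x hx => map_mem_eis c hx)
    ?_ ?_ ?_
  · intro k x hxE hx
    obtain ⟨y₀, hy₀⟩ := hdiv x
    have := hfin (k + 1)
    obtain ⟨f, hf1, hf2⟩ := exists_eis_projector (T := T) (𝔪 := 𝔪) (J := J) (k + 1)
    have hy₀t : y₀ ∈ tk J (k + 1) := by
      rw [mem_tk, pow_succ, mul_comm, mul_nsmul, hy₀, hx]
    have hxt : x ∈ tk J (k + 1) := tk_mono (Nat.le_succ k) (mem_tk.mpr hx)
    refine ⟨y₀ - f • y₀, hf1 y₀ hy₀t, ?_⟩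
    rw [smul_sub, smul_comm, hy₀, hf2 x hxE hxt, sub_zero]
  · intro k
    have := hfin k
    exact Finite.of_injective (fun x : ↥(eis 𝔪 J ⊓ tk J k) => (⟨x, x.2.2⟩ : ↥(tk J k)))
      (fun a b h => Subtype.ext (congrArg (fun e : ↥(tk J k) => (e : J)) h))
  · intro k
    have := hfin k
    obtain ⟨B, hB⟩ := hpair k
    exact card_iso c hc k B hB

/-- **LOC-∞ (abstract, Eisenstein form).**  If `c (2 y) = 2 y` and `c y - y` lies in the
Eisenstein part, then `c y - y ∈ U∞`. -/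
theorem sub_mem_uoo (c : J →ₗ[T] J) (hc : ∀ x, c (c x) = x)
    (hdiv : ∀ x : J, ∃ y : J, 2 • y = x) [Finite ↥(tk J 2)] (y : J)
    (hy : c (2 • y) = 2 • y) (hyE : c y - y ∈ primaryPart 𝔪 J) :
    c y - y ∈ uoo 𝔪 c := by
  have h2 : 2 • (c y - y) = 0 := by
    rw [smul_sub, ← map_nsmul, hy, sub_self]
  rw [mem_uoo]
  refine ⟨?_, h2⟩
  obtain ⟨z, hz4, hz⟩ := exists_four_torsion_sub_eq c.toAddMonoidHom hc hdiv y hy
  obtain ⟨f, hf1, hf2⟩ := exists_eis_projector (T := T) (𝔪 := 𝔪) (J := J) 2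
  have hzt : z ∈ tk J 2 := mem_tk.mpr (by simpa using hz4)
  have hvt : c y - y ∈ tk J 2 := tk_mono (by omega : 1 ≤ 2) (mem_tk.mpr (by simpa using h2))
  refine ⟨z - f • z, hf1 z hzt, ?_, ?_⟩
  · have := (tk J 2).sub_mem hzt (show f • z ∈ tk J 2 by
      rw [mem_tk] at hzt ⊢
      rw [smul_comm, hzt, smul_zero])
    rw [mem_tk] at this
    simpa using this
  · have hz' : c z - z = c y - y := hz
    rw [map_sub, map_smul, sub_sub_sub_comm, ← smul_sub, hz', hf2 _ hyE hvt, sub_zero]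

end Fermat.Agent.S15.H111
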