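/-
Row S15, node DESC, leaf LOCR2 through the REAL place (helper111).
Design: `coord/S15-COUNT2-helper111.md`; abstract algebra: `H111/Count2Alg.lean`, `H111/Count2Top.lean`.

For `r = 2` the subgroup `K` of the skeleton node `H975.LocalStatement` can be taken at the real
place: `K = U∞ = (cc - 1) E[4] ∩ J[2]`, `cc` = complex conjugation, `E` = Eisenstein part of
`J₀(p)[2^∞]`.  This file instantiates the abstract count on `J = JZero p`,
`T = H302.GoodAlg p S` (polynomial ring on the good Hecke operators), in the language of the frozen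
skeleton `H975/DescSpec.lean`:

* `LocR2RealStatement` : for `2 ∈ S` there is `K ≤ eis p S 2` with `|K|² ≤ |eis p S 2|` and
  `cc • y - y ∈ K` for every `y ∈ sel p 2 (eis p S 2)`.
* `Pair2Statement`     : (PAIR) on every `J₀(p)[2^k]` a bi-additive pairing with values in `ℤ/2^k`,
  with trivial right kernel, self-adjoint for the `T_ℓ` (`ℓ ≠ p, 2`), anti-invariant under `cc`.
* `locR2Real_of_pair`  : `DIV + FIN + PAIR ⟹ LocR2RealStatement`.
* `mem_eis_iff_mem_primaryPart` : the skeleton's `eis p S 2` is the `2`-torsion of the primary part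
  of `J` at the Eisenstein ideal `eisIdeal p S = (2, T_ℓ - 1 - ℓ)`.
-/
import Fermat.Agent.S15.H975.DescSpec
import Fermat.Agent.S15.H111.Count2Top
import Fermat.Agent.S15.H302.DescAlg
import Fermat.Prelude.Def_GaloisRep_ComplexConjugation

set_option autoImplicit false

noncomputable section

namespace Fermat.Agent.S15.H111

open ModularCurve Fermat.Agent.S15.H975 Fermat.Agent.S15.H2 Fermat.Agent.S15.H302

/-- **LOC-R2 at the real place** (COUNT-2 + LOC-∞): for `2 ∈ S` there is a subgroup `K` of the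
Eisenstein part `W_E` of `J₀(p)[2]` with `|K|² ≤ |W_E|` containing all the values at the complex
conjugation of the cocycles of `Y(W_E)`. -/
def LocR2RealStatement : Prop :=
  ∀ (p : ℕ) [NeZero p], p.Prime → p ≠ 2 → ∀ (S : Finset ℕ), 2 ∈ S →
    ∃ K : AddSubgroup (JZero p), K ≤ H975.eis p (S : Set ℕ) 2 ∧
      Nat.card ↥K ^ 2 ≤ Nat.card ↥(H975.eis p (S : Set ℕ) 2) ∧
      ∀ y ∈ sel p 2 (H975.eis p (S : Set ℕ) 2), complexConjugation • y - y ∈ K

/-- **PAIR** (all moduli `2^k`): a pairing on `J₀(p)[2^k]` with values in `ℤ/2^k`, bi-additive,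
with trivial right kernel, self-adjoint for the Hecke operators `T_ℓ`, `ℓ ≠ p, 2`, and
anti-invariant under the complex conjugation.  (Values outside `J₀(p)[2^k]` are junk.) -/
def Pair2Statement : Prop :=
  ∀ (p : ℕ) [NeZero p], p.Prime → p ≠ 2 → ∀ k : ℕ,
    ∃ B : JZero p → JZero p → ZMod (2 ^ k),
      (∀ x x' y : JZero p, 2 ^ k • x = 0 → 2 ^ k • x' = 0 → 2 ^ k • y = 0 →
        B (x + x') y = B x y + B x' y) ∧
      (∀ x y y' : JZero p, 2 ^ k • x = 0 → 2 ^ k • y = 0 → 2 ^ k • y' = 0 →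
        B x (y + y') = B x y + B x y') ∧
      (∀ y : JZero p, 2 ^ k • y = 0 → (∀ x : JZero p, 2 ^ k • x = 0 → B x y = 0) → y = 0) ∧
      (∀ ℓ : Nat.Primes, (ℓ : ℕ) ≠ p → (ℓ : ℕ) ≠ 2 → ∀ x y : JZero p, 2 ^ k • x = 0 →
        2 ^ k • y = 0 → B (heckeOperatorBar p ℓ x) y = B x (heckeOperatorBar p ℓ y)) ∧
      (∀ x y : JZero p, 2 ^ k • x = 0 → 2 ^ k • y = 0 →
        B (complexConjugation • x) (complexConjugation • y) = - B x y)

section Good

variable (p : ℕ) [NeZero p] (S : Set ℕ)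

/-- `J₀(p)(ℚ̄)` as a module over the polynomial ring on the good Hecke operators. -/
@[reducible] def goodModule : Module (GoodAlg p S) (JZero p) :=
  Module.compHom (JZero p) (goodEval p S)

attribute [local instance] goodModule

theorem good_smul_def (t : GoodAlg p S) (x : JZero p) : t • x = goodEval p S t x := rfl

/-- The Eisenstein ideal `(2, T_ℓ - 1 - ℓ : ℓ good)` of the good polynomial ring. -/
def eisIdeal : Ideal (GoodAlg p S) :=
  Ideal.span (insert (MvPolynomial.C (2 : ℤ))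
    (Set.range fun ℓ : GoodPrime p S =>
      MvPolynomial.X ℓ - MvPolynomial.C (((1 + (ℓ.1 : ℕ) : ℕ) : ℤ))))

/-- The generator `X_ℓ - (1 + ℓ)` of the Eisenstein ideal. -/
def etaGen (ℓ : GoodPrime p S) : GoodAlg p S :=
  MvPolynomial.X ℓ - MvPolynomial.C (((1 + (ℓ.1 : ℕ) : ℕ) : ℤ))

theorem etaGen_mem (ℓ : GoodPrime p S) : etaGen p S ℓ ∈ eisIdeal p S :=
  Ideal.subset_span (Set.mem_insert_of_mem _ ⟨ℓ, rfl⟩)

theorem two_mem_eisIdeal : (MvPolynomial.C (2 : ℤ) : GoodAlg p S) ∈ eisIdeal p S :=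
  Ideal.subset_span (Set.mem_insert _ _)

theorem goodEval_etaGen (ℓ : GoodPrime p S) : goodEval p S (etaGen p S ℓ) = eta p ℓ.1 := by
  rw [etaGen, map_sub, goodEval_X, goodEval_C, eta, zsmul_one]

theorem etaGen_pow_smul (ℓ : GoodPrime p S) (k : ℕ) (w : JZero p) :
    etaGen p S ℓ ^ k • w = (eta p ℓ.1 ^ k) w := by
  rw [good_smul_def, map_pow, goodEval_etaGen]

theorem C_two_smul (w : JZero p) : (MvPolynomial.C (2 : ℤ) : GoodAlg p S) • w = 2 • w := by
  rw [good_smul_def, goodEval_C, Module.End.intCast_apply]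
  exact natCast_zsmul w 2

/-- `J₀(p)[2^k]` of `Count2Alg` is the skeleton's `tors p (2^k)`. -/
theorem mem_tk_iff_mem_tors {k : ℕ} {x : JZero p} : x ∈ tk (JZero p) k ↔ x ∈ tors p (2 ^ k) :=
  mem_tk

theorem finite_tk_of_finite_tors (k : ℕ) [h : Finite ↥(tors p (2 ^ k))] :
    Finite ↥(tk (JZero p) k) :=
  Finite.of_injective
    (fun x : ↥(tk (JZero p) k) => (⟨x, (mem_tk_iff_mem_tors p).mp x.2⟩ : ↥(tors p (2 ^ k))))
    (fun a b hab => Subtype.ext (congrArg (fun e : ↥(tors p (2 ^ k)) => (e : JZero p)) hab))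

/-- The primary part at the Eisenstein ideal consists of Eisenstein classes. -/
theorem isEis_of_mem_primaryPart {w : JZero p} (hw : w ∈ primaryPart (eisIdeal p S) (JZero p)) :
    IsEis p S w := by
  intro ℓ h1 h2
  obtain ⟨k, hk⟩ := hw
  refine ⟨k, ?_⟩
  have := hk (etaGen p S ⟨ℓ, h1, h2⟩ ^ k) (Ideal.pow_mem_pow (etaGen_mem p S ⟨ℓ, h1, h2⟩) k)
  rwa [etaGen_pow_smul] at this

/-- A `2`-torsion Eisenstein class lies in the primary part at the Eisenstein ideal. -/
theorem mem_primaryPart_of_isEis [Finite ↥(tors p (2 ^ 1))] {w : JZero p} (h2 : 2 • w = 0)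
    (hw : IsEis p S w) : w ∈ primaryPart (eisIdeal p S) (JZero p) := by
  have hfin1 : Finite ↥(tk (JZero p) 1) := finite_tk_of_finite_tors p 1
  have hfin : Finite ↥(tkSub (T := GoodAlg p S) (JZero p) 1) :=
    Finite.of_injective
      (fun x : tkSub (T := GoodAlg p S) (JZero p) 1 => (⟨x, mem_tkSub_iff.mp x.2⟩ :
        ↥(tk (JZero p) 1)))
      (fun a b h => Subtype.ext (congrArg (fun e : ↥(tk (JZero p) 1) => (e : JZero p)) h))
  obtain ⟨K, f, hs⟩ := exists_isSplit (eisIdeal p S) (tkSub (T := GoodAlg p S) (JZero p) 1)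
  have hwt : w ∈ tkSub (T := GoodAlg p S) (JZero p) 1 := by
    rw [mem_tkSub, pow_one]; exact h2
  -- the Eisenstein ideal lies in the radical of the annihilator of `w`
  have hrad : eisIdeal p S ≤ (Ideal.torsionOf (GoodAlg p S) (JZero p) w).radical := by
    refine Ideal.span_le.mpr ?_
    rintro g (rfl | ⟨ℓ, rfl⟩)
    · refine Ideal.le_radical ?_
      rw [Ideal.mem_torsionOf_iff, C_two_smul, h2]
    · obtain ⟨k, hk⟩ := hw ℓ.1 ℓ.2.1 ℓ.2.2
      refine ⟨k, ?_⟩
      rw [Ideal.mem_torsionOf_iff]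
      exact (etaGen_pow_smul p S ℓ k w).trans hk
  have hf : f ∈ eisIdeal p S := by
    have := hs.pow_mem 1
    simpa using this
  obtain ⟨n, hn⟩ := hrad hf
  rw [Ideal.mem_torsionOf_iff] at hn
  have hfw : f • (⟨w, hwt⟩ : tkSub (T := GoodAlg p S) (JZero p) 1) = 0 := by
    rcases Nat.eq_zero_or_pos n with rfl | hnpos
    · rw [pow_zero, one_smul] at hn
      subst hn
      exact Subtype.ext (smul_zero f)
    · rw [← hs.pow_smul _ n hnpos]
      exact Subtype.ext hn
  have := (hs.mem_primaryPart_iff _).mpr hfw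
  rwa [coe_mem_primaryPart_iff] at this

/-- **The bridge**: the skeleton's `W_E = eis p S 2` is the `2`-torsion of the primary part of
`J₀(p)(ℚ̄)` at the Eisenstein ideal. -/
theorem mem_eis_iff_mem_primaryPart [Finite ↥(tors p (2 ^ 1))] {w : JZero p} :
    w ∈ H975.eis p S 2 ↔ w ∈ H111.eis (eisIdeal p S) (JZero p) ⊓ tk (JZero p) 1 := by
  rw [AddSubgroup.mem_inf, mem_tk, pow_one]
  constructor
  · rintro ⟨h2, hE⟩
    exact ⟨mem_primaryPart_of_isEis p S h2 hE, h2⟩
  · rintro ⟨hE, h2⟩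
    exact ⟨h2, isEis_of_mem_primaryPart p S hE⟩

/-- The complex conjugation as a Hecke-linear endomorphism of `J₀(p)(ℚ̄)`. -/
def ccLin : JZero p →ₗ[GoodAlg p S] JZero p where
  toFun x := complexConjugation • x
  map_add' x y := smul_add _ x y
  map_smul' t x := by
    show complexConjugation • (goodEval p S t x) = goodEval p S t (complexConjugation • x)
    exact (goodEval_galois p S t complexConjugation x).symm

theorem ccLin_apply (x : JZero p) : ccLin p S x = complexConjugation • x := rfl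

theorem ccLin_ccLin (x : JZero p) : ccLin p S (ccLin p S x) = x := by
  rw [ccLin_apply, ccLin_apply, smul_smul, complexConjugation_mul_self, one_smul]

theorem smul_mem_tk (t : GoodAlg p S) {k : ℕ} {x : JZero p} (hx : x ∈ tk (JZero p) k) :
    t • x ∈ tk (JZero p) k := by
  rw [mem_tk] at hx ⊢
  rw [smul_comm, hx, smul_zero]

/-- Self-adjointness for the generators gives self-adjointness for the whole polynomial ring. -/
theorem hecke_of_gens {k : ℕ} (B : JZero p → JZero p → ZMod (2 ^ k))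
    (hl : ∀ x ∈ tk (JZero p) k, ∀ x' ∈ tk (JZero p) k, ∀ y ∈ tk (JZero p) k,
      B (x + x') y = B x y + B x' y)
    (hr : ∀ x ∈ tk (JZero p) k, ∀ y ∈ tk (JZero p) k, ∀ y' ∈ tk (JZero p) k,
      B x (y + y') = B x y + B x y')
    (hgen : ∀ ℓ : GoodPrime p S, ∀ x ∈ tk (JZero p) k, ∀ y ∈ tk (JZero p) k,
      B (heckeOperatorBar p ℓ.1 x) y = B x (heckeOperatorBar p ℓ.1 y))
    (t : GoodAlg p S) : ∀ x ∈ tk (JZero p) k, ∀ y ∈ tk (JZero p) k, B (t • x) y = B x (t • y) := by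
  -- additive maps in each variable
  have hL : ∀ y ∈ tk (JZero p) k, ∃ φ : ↥(tk (JZero p) k) →+ ZMod (2 ^ k), ∀ x, φ x = B x y :=
    fun y hy => ⟨AddMonoidHom.mk' (fun x => B x y) (fun a b => hl a a.2 b b.2 y hy), fun _ => rfl⟩
  have hR : ∀ x ∈ tk (JZero p) k, ∃ φ : ↥(tk (JZero p) k) →+ ZMod (2 ^ k), ∀ y, φ y = B x y :=
    fun x hx => ⟨AddMonoidHom.mk' (fun y => B x y) (fun a b => hr x hx a a.2 b b.2), fun _ => rfl⟩
  induction t using MvPolynomial.induction_on with
  | C a =>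
    intro x hx y hy
    have e1 : (MvPolynomial.C a : GoodAlg p S) • x = a • x := by
      rw [good_smul_def, goodEval_C, Module.End.intCast_apply]
    have e2 : (MvPolynomial.C a : GoodAlg p S) • y = a • y := by
      rw [good_smul_def, goodEval_C, Module.End.intCast_apply]
    rw [e1, e2]
    obtain ⟨φ, hφ⟩ := hL y hy
    obtain ⟨ψ, hψ⟩ := hR x hx
    have h1 := hφ (a • ⟨x, hx⟩)
    have h2 := hψ (a • ⟨y, hy⟩)
    rw [map_zsmul, hφ] at h1
    rw [map_zsmul, hψ] at h2
    have c1 : ((a • (⟨x, hx⟩ : ↥(tk (JZero p) k)) : ↥(tk (JZero p) k)) : JZero p) = a • x := rfl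
    have c2 : ((a • (⟨y, hy⟩ : ↥(tk (JZero p) k)) : ↥(tk (JZero p) k)) : JZero p) = a • y := rfl
    rw [c1] at h1
    rw [c2] at h2
    rw [← h1, ← h2]
  | add u v hu hv =>
    intro x hx y hy
    rw [add_smul, add_smul, hl _ (smul_mem_tk p S u hx) _ (smul_mem_tk p S v hx) y hy,
      hr x hx _ (smul_mem_tk p S u hy) _ (smul_mem_tk p S v hy), hu x hx y hy, hv x hx y hy]
  | mul_X u ℓ hu =>
    intro x hx y hy
    have eX : ∀ z : JZero p, (MvPolynomial.X ℓ : GoodAlg p S) • z = heckeOperatorBar p ℓ.1 z :=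
      fun z => by rw [good_smul_def, goodEval_X]
    have hXx : heckeOperatorBar p ℓ.1 x ∈ tk (JZero p) k := by
      rw [← eX]; exact smul_mem_tk p S _ hx
    rw [mul_smul, eX, hu _ hXx y hy, hgen ℓ x hx _ (smul_mem_tk p S u hy), ← eX, ← mul_smul,
      mul_comm]

end Good

/-- **LOC-R2 at the real place from DIV, FIN and PAIR.** -/
theorem locR2Real_of_pair (hDiv : DivStatement) (hFin : FinStatement) (hPair : Pair2Statement) :
    LocR2RealStatement := by
  intro p _ hp hp2 S h2S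
  letI : Module (GoodAlg p (S : Set ℕ)) (JZero p) := goodModule p (S : Set ℕ)
  have hfinT : ∀ k, Finite ↥(tors p (2 ^ k)) := fun k => hFin p (2 ^ k) (by positivity)
  have hfin : ∀ k, Finite ↥(tk (JZero p) k) := fun k =>
    haveI := hfinT k
    finite_tk_of_finite_tors p k
  haveI := hfinT 1
  haveI := hfin 2
  have hdiv : ∀ x : JZero p, ∃ y : JZero p, 2 • y = x := hDiv p hp 2 Nat.prime_two
  have hc := ccLin_ccLin p (S : Set ℕ)
  have hpair : ∀ k, ∃ B : JZero p → JZero p → ZMod (2 ^ k),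
      IsGoodPairing (GoodAlg p (S : Set ℕ)) (ccLin p (S : Set ℕ)) k B := by
    intro k
    obtain ⟨B, h1, h2, h3, h4, h5⟩ := hPair p hp hp2 k
    have hl : ∀ x ∈ tk (JZero p) k, ∀ x' ∈ tk (JZero p) k, ∀ y ∈ tk (JZero p) k,
        B (x + x') y = B x y + B x' y :=
      fun x hx x' hx' y hy => h1 x x' y (mem_tk.mp hx) (mem_tk.mp hx') (mem_tk.mp hy)
    have hr : ∀ x ∈ tk (JZero p) k, ∀ y ∈ tk (JZero p) k, ∀ y' ∈ tk (JZero p) k,
        B x (y + y') = B x y + B x y' :=
      fun x hx y hy y' hy' => h2 x y y' (mem_tk.mp hx) (mem_tk.mp hy) (mem_tk.mp hy')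
    refine ⟨B, hl, hr, fun y hy h => h3 y (mem_tk.mp hy) fun x hx => h x (mem_tk.mpr hx), ?_,
      fun x hx y hy => h5 x y (mem_tk.mp hx) (mem_tk.mp hy)⟩
    intro t
    refine hecke_of_gens p (S : Set ℕ) B hl hr (fun ℓ x hx y hy => ?_) t
    refine h4 ℓ.1 ℓ.2.1 (fun h => ℓ.2.2 ?_) x y (mem_tk.mp hx) (mem_tk.mp hy)
    rw [h]
    exact Finset.mem_coe.mpr h2S
  refine ⟨uoo (eisIdeal p (S : Set ℕ)) (ccLin p (S : Set ℕ)), ?_, ?_, ?_⟩
  · -- `U∞ ≤ W_E`
    intro v hv
    rw [mem_uoo] at hv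
    obtain ⟨⟨z, hzE, -, rfl⟩, h2⟩ := hv
    refine (mem_eis_iff_mem_primaryPart p (S : Set ℕ)).mpr (AddSubgroup.mem_inf.mpr ⟨?_, ?_⟩)
    · exact (H111.eis (eisIdeal p (S : Set ℕ)) (JZero p)).sub_mem
        (map_mem_eis (ccLin p (S : Set ℕ)) hzE) hzE
    · rw [mem_tk, pow_one]; exact h2
  · -- the count
    have hcard := card_uoo_sq_le (𝔪 := eisIdeal p (S : Set ℕ)) (ccLin p (S : Set ℕ)) hc hdiv hfin
      hpair
    have heq : H975.eis p (S : Set ℕ) 2 =
        H111.eis (eisIdeal p (S : Set ℕ)) (JZero p) ⊓ tk (JZero p) 1 :=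
      AddSubgroup.ext fun w => mem_eis_iff_mem_primaryPart p (S : Set ℕ)
    rw [heq]
    exact hcard
  · -- LOC-∞
    rintro y ⟨hy1, hy2⟩
    have hyE : ccLin p (S : Set ℕ) y - y ∈ primaryPart (eisIdeal p (S : Set ℕ)) (JZero p) :=
      ((mem_eis_iff_mem_primaryPart p (S : Set ℕ)).mp (hy2 complexConjugation)).1
    exact sub_mem_uoo (𝔪 := eisIdeal p (S : Set ℕ)) (ccLin p (S : Set ℕ)) hc hdiv y
      (hy1 complexConjugation) hyE

end Fermat.Agent.S15.H111

end
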