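/-
Row S15, node DESC, tower COUNT (helper111): the pairing (PAIR) on `J₀(N)[m]` from the Kummer
dictionary.  Design: `coord/S15-COUNT2-helper111.md`.

Inputs, all on main:
* the Kummer dictionary of rows S29/S30: `S30.Chain.kumPackage` (every cuspidal character
  `Γ₀(N) → ℤ/m` has a point; uniqueness, injectivity, additivity), `S30.H810` (every `m`-torsion
  point has a character), the Hecke compatibility `S29.H395` (replayed here for ALL `ℓ ∤ N`,
  including `ℓ ∣ m`);
* the Manin pairing modulo `m`: `S59.H585` (bi-additive, perfect, Hecke self-adjoint);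
* EPS: `S15.H221.maninPairing_gamma0Eps` (anti-invariance under `Ad ε`, `ε = diag(-1, 1)`).

The only open input is CONJ (`ConjStatement`, owners helper337/helper346): the Kummer character
of `cc • x` is `γ ↦ - c (ε γ ε⁻¹)`.  Only the weak form `ConjWeakStatement` (`± c ∘ Ad ε`) is used.

Main results:
* `chi N m x`          : the cuspidal class of the `m`-torsion point `x`;
* `isKum_hecke_all`    : Hecke compatibility of the dictionary for every prime `ℓ ∤ N`;
* `pairJ N m`          : the pairing `B(x, y) = maninPairing (chi x) (chi y)`;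
* `pairStatement_of_conj : ConjWeakStatement → PairStatement`.
-/
import Fermat.Agent.S30.Chain.Package
import Fermat.Agent.S30.H810.ParHom
import Fermat.Agent.S59.H585.IntPDMod
import Fermat.Agent.S15.H221.Eps
import Fermat.Agent.Ribet.H883.Bridge
import Fermat.Agent.S29.M4b.H395.Hecke
import Fermat.Prelude.Def_GaloisRep_ComplexConjugation

set_option autoImplicit false
set_option linter.style.haveILetI false

noncomputable section

open ModularCurve AlgebraicCurve CongruenceSubgroup UpperHalfPlane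
open scoped MatrixGroups Manifold Real

namespace Fermat.Agent.S15.H111

open Fermat.Agent.S24 Fermat.Agent.S29 Fermat.Agent.S29.M4b Fermat.Agent.S37.H400
open Fermat.Agent.S41.Spec Fermat.Agent.Ribet.H883 Fermat.Agent.S29.H395

/-! ## Statements -/

/-- **CONJ**: the Kummer character of the complex conjugate of `x` is `γ ↦ - c (ε γ ε⁻¹)`. -/
def ConjStatement : Prop :=
  ∀ (N m : ℕ) [NeZero N] [NeZero m] (c : G0 N → ZMod m) (x : JZero N),
    IsKum N m c x →
      IsKum N m (fun g => - c (Fermat.Agent.S15.H221.gamma0Eps N g)) (complexConjugation • x)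

/-- **CONJ, weak form**: the Kummer character of the complex conjugate of `x` is
`γ ↦ u * c (ε γ ε⁻¹)` for a fixed sign `u` (`u * u = 1`). -/
def ConjWeakStatement : Prop :=
  ∀ (N m : ℕ) [NeZero N] [NeZero m], ∃ u : ZMod m, u * u = 1 ∧
    ∀ (c : G0 N → ZMod m) (x : JZero N), IsKum N m c x →
      IsKum N m (fun g => u * c (Fermat.Agent.S15.H221.gamma0Eps N g)) (complexConjugation • x)

theorem conjWeak_of_conj (h : ConjStatement) : ConjWeakStatement := by
  intro N m _ _
  refine ⟨-1, by ring, fun c x hx => ?_⟩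
  have := h N m c x hx
  simpa using this

/-- **PAIR**: on every `J₀(N)[m]` a pairing with values in `ℤ/m`, bi-additive, with trivial
right kernel, self-adjoint for the Hecke operators `T_ℓ`, `ℓ ∤ N`, and anti-invariant under the
complex conjugation.  (Values outside `J₀(N)[m]` are junk.) -/
def PairStatement : Prop :=
  ∀ (N : ℕ) [NeZero N] (m : ℕ), 0 < m →
    ∃ B : JZero N → JZero N → ZMod m,
      (∀ x x' y : JZero N, m • x = 0 → m • x' = 0 → m • y = 0 →
        B (x + x') y = B x y + B x' y) ∧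
      (∀ x y y' : JZero N, m • x = 0 → m • y = 0 → m • y' = 0 →
        B x (y + y') = B x y + B x y') ∧
      (∀ y : JZero N, m • y = 0 → (∀ x : JZero N, m • x = 0 → B x y = 0) → y = 0) ∧
      (∀ ℓ : Nat.Primes, ¬ (ℓ : ℕ) ∣ N → ∀ x y : JZero N, m • x = 0 → m • y = 0 →
        B (heckeOperatorBar N ℓ x) y = B x (heckeOperatorBar N ℓ y)) ∧
      (∀ x y : JZero N, m • x = 0 → m • y = 0 →
        B (complexConjugation • x) (complexConjugation • y) = - B x y)

/-! ## The two languages for characters -/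

section Lang

variable {N : ℕ} {A : Type*} [AddCommGroup A]

theorem isCuspidal_of_isParHom {φ : Additive (Gamma0 N) →+ A} (h : IsParHom (funOf φ)) :
    IsCuspidal φ := by
  refine ⟨fun γ hγ => ?_, fun γ hγ => ?_⟩
  · refine h.parabolic γ ?_
    have hγ' : (G0.mat γ).trace ^ 2 = 4 := hγ
    have h0 : ((G0.mat γ).trace - 2) * ((G0.mat γ).trace + 2) = 0 := by
      linear_combination hγ'
    rcases mul_eq_zero.mp h0 with h1 | h1
    · left; linarith
    · right; linarith
  · obtain ⟨n, hn, hγn⟩ := isOfFinOrder_iff_pow_eq_one.mp hγ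
    exact h.elliptic γ n hn hγn

theorem isParHom_of_isCuspidal {φ : Additive (Gamma0 N) →+ A} (h : IsCuspidal φ) :
    IsParHom (funOf φ) := by
  refine ⟨funOf_map_mul φ, fun γ hγ => h.1 γ ?_, fun γ n hn hγn =>
    h.2 γ (isOfFinOrder_iff_pow_eq_one.mpr ⟨n, hn, hγn⟩)⟩
  have e : ((γ : SL(2, ℤ)) : Matrix (Fin 2) (Fin 2) ℤ).trace = (G0.mat γ).trace := rfl
  rw [e]
  rcases hγ with h1 | h1 <;> rw [h1] <;> norm_num

theorem funOf_add (φ ψ : Additive (Gamma0 N) →+ A) : funOf (φ + ψ) = funOf φ + funOf ψ := rfl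

theorem funOf_zero : funOf (0 : Additive (Gamma0 N) →+ A) = 0 := rfl

theorem funOf_homOf (c : G0 N → A) (hc : ∀ γ γ' : G0 N, c (γ * γ') = c γ + c γ') :
    funOf (homOf c hc) = c := rfl

end Lang

/-! ## Hecke compatibility of the dictionary for every `ℓ ∤ N` -/

section Hecke

variable (N : ℕ) [NeZero N] (p : ℕ) [NeZero p]

/-- **K4-HECKE for all `ℓ ∤ N`** (replay of `S29.H395.isKum_hecke_of_normId`, whose hypothesis
`ℓ ∤ N * p` is only used through `ℓ ∤ N`). -/
theorem isKum_hecke_all (ℓ : Nat.Primes) (hℓN : ¬ (ℓ : ℕ) ∣ N)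
    {c c' : G0 N → ZMod p} (hcc' : IsTransfer N (ℓ : ℕ) c c')
    {x : JZero N} (h : IsKum N p c x) : IsKum N p c' (heckeOperatorBar N ℓ x) := by
  haveI : NeZero (ℓ : ℕ) := ⟨ℓ.2.ne_zero⟩
  haveI : Fact (ℓ : ℕ).Prime := ⟨ℓ.2⟩
  have hnorm : H222.NormId N (ℓ : ℕ) := Fermat.Agent.S29.M4b.H395.normId_H222 N (ℓ : ℕ) ℓ.2 hℓN
  obtain ⟨f, t, U, ht, hx, hU, hR⟩ := h
  obtain ⟨hα, hβ, hP, hfin, hFI, hN⟩ := heckeInputsAlong_bar N (ℓ : ℕ) ℓ.2
  haveI := hP
  set α := heckeAlphaBar (AlgebraicClosure ℚ) N (ℓ : ℕ) with hαdef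
  set β := heckeBetaBar (AlgebraicClosure ℚ) N (ℓ : ℕ) with hβdef
  have hT : heckeOperatorBar N ℓ x = Pic0.correspondence β α hβ hα hFI hfin hN x := by
    rw [heckeOperatorBar_apply, heckeOperatorAlong_eq hα hβ hFI hfin hN]
    rfl
  have hx' := hx.correspondence β α hβ hα hFI hfin hN
  rw [← hT] at hx'
  have ht' : H455.normAlong α (β t) ≠ 0 :=
    H455.normAlong_ne_zero α hfin ((map_ne_zero β).mpr ht)
  have hmul : H455.normAlong α (β f) * H455.normAlong α (β t) ^ p
      = H222.heckeNorm N (ℓ : ℕ) (f * t ^ p) := by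
    rw [← H455.normAlong_pow, ← H455.normAlong_mul, ← map_pow, ← map_mul]
    rfl
  have hgood : (fun τ => heckeProd (ℓ : ℕ) U τ ^ p) ∈ H648.goodRing N := by
    rw [← heckeProd_pow_fun]
    exact heckeProd_mem_goodRing hℓN hR.1
  have hq : H708.qexpFun 1 (fun τ => heckeProd (ℓ : ℕ) U τ ^ p)
      = coeffMap Deg457.iotaC
          ((((H455.normAlong α (β f) * H455.normAlong α (β t) ^ p : FF N)) : FF N) :
            LaurentSeries Kbar) := by
    rw [← heckeProd_pow_fun, qexpFun_heckeProd hℓN hR.1, hR.2, ← coeffMap_kronNorm, hmul]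
    exact congrArg _ (hnorm (f * t ^ p)).symm
  have hne : (H455.normAlong α (β f) * H455.normAlong α (β t) ^ p : FF N) ≠ 0 :=
    mul_ne_zero hx'.ne_zero (pow_ne_zero _ ht')
  refine ⟨H455.normAlong α (β f), H455.normAlong α (β t), heckeProd (ℓ : ℕ) U, ht', hx',
    ⟨mdiff_heckeProd hU.mdiff, ?_, hasChar_heckeProd N p hℓN hcc' hU.hasChar, hgood⟩,
    ⟨hgood, hq⟩⟩
  by_contra hzero
  push Not at hzero
  have hp0 : p ≠ 0 := NeZero.ne p
  have h0 : (fun τ => heckeProd (ℓ : ℕ) U τ ^ p) = 0 := by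
    funext τ
    rw [hzero τ]
    simp [hp0]
  have h1 := (H882.hasQExp_of_mem_goodRing hgood)
  have h2 : H708.qexpFun 1 (fun τ => heckeProd (ℓ : ℕ) U τ ^ p) = 0 :=
    h1.eq_zero_iff.mpr h0
  rw [hq] at h2
  have hinj : Function.Injective (coeffMap Deg457.iotaC) :=
    inf_coeffMap_injective Deg457.iotaC.injective
  have h3 : (((H455.normAlong α (β f) * H455.normAlong α (β t) ^ p : FF N)) :
      LaurentSeries Kbar) = 0 := hinj (by rw [h2, map_zero])
  exact hne (by exact_mod_cast h3)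

end Hecke

/-! ## The character of a torsion point -/

section Chi

variable (N : ℕ) [NeZero N] (m : ℕ) [NeZero m]

theorem isKum_zero_zero : IsKum N m (0 : G0 N → ZMod m) (0 : JZero N) := by
  have H := Fermat.Agent.S30.Chain.kumPackage N m
  have hpar : IsParHom (0 : G0 N → ZMod m) :=
    ⟨fun _ _ => by simp, fun _ _ => rfl, fun _ _ _ _ => rfl⟩
  obtain ⟨x₀, hx₀⟩ := H.ex 0 hpar
  have h2 := H.add 0 0 x₀ x₀ hx₀ hx₀
  rw [add_zero] at h2
  have hx : x₀ = x₀ + x₀ := H.uniq 0 x₀ (x₀ + x₀) hx₀ h2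
  have : x₀ = 0 := by
    have := congrArg (fun z => z - x₀) hx
    simpa using this.symm
  rwa [this] at hx₀

variable {N m}

theorem isKum_nsmul {c : G0 N → ZMod m} {x : JZero N} (h : IsKum N m c x) (n : ℕ) :
    IsKum N m (n • c) (n • x) := by
  have H := Fermat.Agent.S30.Chain.kumPackage N m
  induction n with
  | zero =>
    rw [zero_nsmul, zero_nsmul]
    exact isKum_zero_zero N m
  | succ n ih =>
    rw [succ_nsmul, succ_nsmul]
    exact H.add _ _ _ _ ih h

theorem nsmul_eq_zero_of_isKum {c : G0 N → ZMod m} {x : JZero N} (h : IsKum N m c x) :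
    m • x = 0 := by
  obtain ⟨f, t, U, -, hx, -, -⟩ := h
  have := hx.zsmul_eq_zero
  rwa [natCast_zsmul] at this

theorem isKum_neg {c : G0 N → ZMod m} {x : JZero N} (h : IsKum N m c x) :
    IsKum N m (-c) (-x) := by
  have h1 := isKum_nsmul h (m - 1)
  have hm : 1 ≤ m := Nat.one_le_iff_ne_zero.mpr (NeZero.ne m)
  have e1 : (m - 1) • x = -x := by
    have h0 := nsmul_eq_zero_of_isKum h
    have : (m - 1) • x + x = 0 := by
      rw [← succ_nsmul, Nat.sub_add_cancel hm, h0]
    exact eq_neg_of_add_eq_zero_left this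
  have e2 : (m - 1) • c = -c := by
    have : (m - 1) • c + c = 0 := by
      rw [← succ_nsmul, Nat.sub_add_cancel hm]
      funext γ
      simp
    exact eq_neg_of_add_eq_zero_left this
  rwa [e1, e2] at h1

/-- The character of a point is unique. -/
theorem isKum_char_unique {c c' : G0 N → ZMod m} {x : JZero N} (h : IsKum N m c x)
    (h' : IsKum N m c' x) : c = c' := by
  have H := Fermat.Agent.S30.Chain.kumPackage N m
  have h1 := H.add _ _ _ _ h (isKum_neg h')
  rw [add_neg_cancel] at h1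
  have := H.inj _ h1
  exact sub_eq_zero.mp (by rw [sub_eq_add_neg]; exact this)

variable (N m)

open Classical in
/-- The cuspidal class `Γ₀(N) → ℤ/m` of the `m`-torsion point `x` (`0` if `x` is not
`m`-torsion). -/
def chi (x : JZero N) : Additive (Gamma0 N) →+ ZMod m :=
  if h : ∃ φ : Additive (Gamma0 N) →+ ZMod m, IsKum N m (funOf φ) x then h.choose else 0

variable {N m}

theorem exists_hom_isKum {x : JZero N} (hx : m • x = 0) :
    ∃ φ : Additive (Gamma0 N) →+ ZMod m, IsKum N m (funOf φ) x := by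
  have hx' : (m : ℤ) • x = 0 := by rw [natCast_zsmul]; exact hx
  obtain ⟨c, hc, hk⟩ := Fermat.Agent.S30.H810.exists_isParHom_isKum_of_torsion N m hx'
  exact ⟨homOf c hc.map_mul, hk⟩

theorem isKum_chi {x : JZero N} (hx : m • x = 0) : IsKum N m (funOf (chi N m x)) x := by
  have h := exists_hom_isKum (N := N) (m := m) hx
  rw [chi, dif_pos h]
  exact h.choose_spec

theorem chi_eq_of_isKum {x : JZero N} {φ : Additive (Gamma0 N) →+ ZMod m}
    (h : IsKum N m (funOf φ) x) : chi N m x = φ :=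
  funOf_injective (isKum_char_unique (isKum_chi (nsmul_eq_zero_of_isKum h)) h)

theorem isCuspidal_chi {x : JZero N} (hx : m • x = 0) : IsCuspidal (chi N m x) :=
  isCuspidal_of_isParHom (Fermat.Agent.S30.H810.isParHom_of_isKum (isKum_chi hx))

theorem chi_add {x x' : JZero N} (hx : m • x = 0) (hx' : m • x' = 0) :
    chi N m (x + x') = chi N m x + chi N m x' := by
  have H := Fermat.Agent.S30.Chain.kumPackage N m
  refine chi_eq_of_isKum ?_
  rw [funOf_add]
  exact H.add _ _ _ _ (isKum_chi hx) (isKum_chi hx')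

theorem eq_zero_of_chi_eq_zero {y : JZero N} (hy : m • y = 0) (h : chi N m y = 0) : y = 0 := by
  have H := Fermat.Agent.S30.Chain.kumPackage N m
  have h1 := isKum_chi (N := N) (m := m) hy
  rw [h, funOf_zero] at h1
  exact H.uniq 0 y 0 h1 (isKum_zero_zero N m)

theorem exists_chi_eq {φ : Additive (Gamma0 N) →+ ZMod m} (hφ : IsCuspidal φ) :
    ∃ x : JZero N, m • x = 0 ∧ chi N m x = φ := by
  have H := Fermat.Agent.S30.Chain.kumPackage N m
  obtain ⟨x, hx⟩ := H.ex (funOf φ) (isParHom_of_isCuspidal hφ)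
  exact ⟨x, nsmul_eq_zero_of_isKum hx, chi_eq_of_isKum hx⟩

theorem chi_hecke (ℓ : ℕ) [Fact ℓ.Prime] (hℓN : ¬ ℓ ∣ N) {x : JZero N} (hx : m • x = 0) :
    chi N m (heckeOperatorBar N ⟨ℓ, Fact.out⟩ x) = H642.heckeTransfer hℓN (chi N m x) := by
  refine chi_eq_of_isKum ?_
  rw [funOf_heckeTransfer]
  exact isKum_hecke_all N m ⟨ℓ, Fact.out⟩ hℓN
    (Fermat.Agent.S30.H450.isTransfer_heckeCoh_h450 Fact.out hℓN _) (isKum_chi hx)

/-- `φ ↦ u • (φ ∘ Ad ε)`. -/
def twistEps (N : ℕ) (u : ZMod m) (φ : Additive (Gamma0 N) →+ ZMod m) :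
    Additive (Gamma0 N) →+ ZMod m :=
  u • φ.comp (MonoidHom.toAdditive (Fermat.Agent.S15.H221.gamma0Eps N).toMonoidHom)

theorem funOf_twistEps (u : ZMod m) (φ : Additive (Gamma0 N) →+ ZMod m) :
    funOf (twistEps N u φ) = fun g => u * funOf φ (Fermat.Agent.S15.H221.gamma0Eps N g) := rfl

theorem chi_conj {u : ZMod m}
    (hu : ∀ (c : G0 N → ZMod m) (x : JZero N), IsKum N m c x →
      IsKum N m (fun g => u * c (Fermat.Agent.S15.H221.gamma0Eps N g)) (complexConjugation • x))
    {x : JZero N} (hx : m • x = 0) :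
    chi N m (complexConjugation • x) = twistEps N u (chi N m x) := by
  refine chi_eq_of_isKum ?_
  rw [funOf_twistEps]
  exact hu _ _ (isKum_chi hx)

end Chi

/-! ## The pairing -/

section Pair

variable (N : ℕ) [NeZero N] (m : ℕ) [NeZero m]

/-- The pairing on `J₀(N)[m]`: the Manin pairing of the characters. -/
def pairJ (x y : JZero N) : ZMod m :=
  maninPairing (Gamma0 N) (chi N m x) (chi N m y)

variable {N m}

theorem hneg_gamma0 : (-1 : SL(2, ℤ)) ∈ Gamma0 N := Fermat.Agent.S59.H585.neg_one_mem_Gamma0' N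

theorem pairJ_add_left {x x' y : JZero N} (hx : m • x = 0) (hx' : m • x' = 0) (hy : m • y = 0) :
    pairJ N m (x + x') y = pairJ N m x y + pairJ N m x' y := by
  have := Fermat.Agent.S59.H585.finiteIndex_Gamma0' (NeZero.ne N)
  rw [pairJ, chi_add hx hx']
  exact Fermat.Agent.S59.H585.maninPairing_add_left hneg_gamma0 (isCuspidal_chi hx)
    (isCuspidal_chi hx') (isCuspidal_chi hy)

theorem pairJ_add_right {x y y' : JZero N} (hx : m • x = 0) (hy : m • y = 0) (hy' : m • y' = 0) :
    pairJ N m x (y + y') = pairJ N m x y + pairJ N m x y' := by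
  have := Fermat.Agent.S59.H585.finiteIndex_Gamma0' (NeZero.ne N)
  rw [pairJ, chi_add hy hy']
  exact Fermat.Agent.S59.H585.maninPairing_add_right hneg_gamma0 (isCuspidal_chi hx)
    (isCuspidal_chi hy) (isCuspidal_chi hy')

theorem pairJ_nondeg {y : JZero N} (hy : m • y = 0)
    (h : ∀ x : JZero N, m • x = 0 → pairJ N m x y = 0) : y = 0 := by
  have := Fermat.Agent.S59.H585.finiteIndex_Gamma0' (NeZero.ne N)
  refine eq_zero_of_chi_eq_zero hy ?_
  refine Fermat.Agent.S59.H585.pairing_mod_right_kernel hneg_gamma0 m (isCuspidal_chi hy) ?_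
  intro φ hφ
  obtain ⟨x, hx, rfl⟩ := exists_chi_eq (N := N) (m := m) hφ
  exact h x hx

theorem nsmul_heckeOperatorBar (ℓ : Nat.Primes) {x : JZero N} (hx : m • x = 0) :
    m • heckeOperatorBar N ℓ x = 0 := by
  rw [← map_nsmul, hx, map_zero]

theorem pairJ_hecke (ℓ : Nat.Primes) (hℓN : ¬ (ℓ : ℕ) ∣ N) {x y : JZero N} (hx : m • x = 0)
    (hy : m • y = 0) :
    pairJ N m (heckeOperatorBar N ℓ x) y = pairJ N m x (heckeOperatorBar N ℓ y) := by
  haveI : Fact (ℓ : ℕ).Prime := ⟨ℓ.2⟩
  have e : (⟨(ℓ : ℕ), Fact.out⟩ : Nat.Primes) = ℓ := Subtype.ext rfl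
  have h1 := chi_hecke (N := N) (m := m) (ℓ : ℕ) hℓN hx
  have h2 := chi_hecke (N := N) (m := m) (ℓ : ℕ) hℓN hy
  rw [e] at h1 h2
  rw [pairJ, pairJ, h1, h2]
  exact Fermat.Agent.S59.H585.pairing_hecke_mod m hℓN (NeZero.ne N) _ _ (isCuspidal_chi hx)
    (isCuspidal_chi hy)

theorem nsmul_conj {x : JZero N} (hx : m • x = 0) : m • (complexConjugation • x) = 0 := by
  rw [smul_comm, hx]
  exact smul_zero (A := JZero N) complexConjugation

theorem pairJ_conj {u : ZMod m} (huu : u * u = 1)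
    (hu : ∀ (c : G0 N → ZMod m) (x : JZero N), IsKum N m c x →
      IsKum N m (fun g => u * c (Fermat.Agent.S15.H221.gamma0Eps N g)) (complexConjugation • x))
    {x y : JZero N} (hx : m • x = 0) (hy : m • y = 0) :
    pairJ N m (complexConjugation • x) (complexConjugation • y) = - pairJ N m x y := by
  have := Fermat.Agent.S59.H585.finiteIndex_Gamma0' (NeZero.ne N)
  rw [pairJ, pairJ, chi_conj hu hx, chi_conj hu hy, twistEps, twistEps]
  have cx := Fermat.Agent.S15.H221.isCuspidal_comp_gamma0Eps (isCuspidal_chi (N := N) hx)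
  have cy := Fermat.Agent.S15.H221.isCuspidal_comp_gamma0Eps (isCuspidal_chi (N := N) hy)
  have cy' : IsCuspidalOn (Gamma0 N) (u • (chi N m y).comp
      (MonoidHom.toAdditive (Fermat.Agent.S15.H221.gamma0Eps N).toMonoidHom)) :=
    (Fermat.Agent.S59.H585.cuspSub (ZMod m) (Gamma0 N) (ZMod m)).smul_mem u cy
  rw [Fermat.Agent.S59.H585.maninPairing_smul_left hneg_gamma0 u cx cy',
    Fermat.Agent.S59.H585.maninPairing_smul_right hneg_gamma0 u cx cy,
    Fermat.Agent.S15.H221.maninPairing_gamma0Eps (NeZero.ne N) (isCuspidal_chi hx)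
      (isCuspidal_chi hy), ← mul_assoc, huu, one_mul]

end Pair

/-- **PAIR from CONJ** (everything else is on main). -/
theorem pairStatement_of_conjWeak (hC : ConjWeakStatement) : PairStatement := by
  intro N _ m hm
  haveI : NeZero m := ⟨hm.ne'⟩
  obtain ⟨u, huu, hu⟩ := hC N m
  exact ⟨pairJ N m, fun x x' y hx hx' hy => pairJ_add_left hx hx' hy,
    fun x y y' hx hy hy' => pairJ_add_right hx hy hy',
    fun y hy h => pairJ_nondeg hy h,
    fun ℓ hℓ x y hx hy => pairJ_hecke ℓ hℓ hx hy,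
    fun x y hx hy => pairJ_conj huu hu hx hy⟩

theorem pairStatement_of_conj (hC : ConjStatement) : PairStatement :=
  pairStatement_of_conjWeak (conjWeak_of_conj hC)

end Fermat.Agent.S15.H111

end
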