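/-
Row S15, node DESC, tower COUNT (helper111): the official node `H975.CountStatement`
(real place, ALL primes `r`, ALL finite sets `S`) from DIV, FIN and PAIR.

* `r = 2`  : `(cc - 1) Y(W_E) ≤ U∞ = (cc - 1) E[4] ∩ J[2]` (LOC-∞) and `|U∞|² ≤ |W_E|` (COUNT-2,
             `Count2Top.card_uoo_sq_le`: pairings modulo `2^k` for all `k` + `J = 2 J`);
* `r` odd  : `(cc - 1) Y(W_E) ≤ W_E^{cc = -1}`, which is isotropic for the pairing modulo `r`.

`PairStatement` is `H111/PairDict.lean` (`pairStatement_of_conjWeak`: PAIR from CONJ alone), so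

    countStatement_of_conjWeak : DivStatement → FinStatement → ConjWeakStatement → CountStatement.

No restriction on `S` (the dictionary is Hecke-compatible at every `ℓ ∤ N`, `isKum_hecke_all`).
-/
import Fermat.Agent.S15.H975.DescSpec2
import Fermat.Agent.S15.H111.LocR2Real
import Fermat.Agent.S15.H111.PairDict

set_option autoImplicit false

noncomputable section

namespace Fermat.Agent.S15.H111

open ModularCurve Fermat.Agent.S15.H975 Fermat.Agent.S15.H2 Fermat.Agent.S15.H302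

/-! ## Abstract algebra at a general modulus -/

section Abstract

variable {T : Type*} [CommRing T] (𝔪 : Ideal T) {J : Type*} [AddCommGroup J] [Module T J]

/-- `J[n]` as a `T`-submodule. -/
def nSub (T : Type*) [CommRing T] (J : Type*) [AddCommGroup J] [Module T J] (n : ℕ) :
    Submodule T J where
  carrier := {x | n • x = 0}
  zero_mem' := smul_zero _
  add_mem' := fun {a b} ha hb => by
    show n • (a + b) = 0
    rw [smul_add, ha, hb, add_zero]
  smul_mem' := fun t x hx => by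
    show n • (t • x) = 0
    rw [smul_comm, hx, smul_zero]

theorem mem_nSub {n : ℕ} {x : J} : x ∈ nSub T J n ↔ n • x = 0 := Iff.rfl

theorem coe_mem_primaryPart_nSub_iff {n : ℕ} (x : nSub T J n) :
    x ∈ primaryPart 𝔪 (nSub T J n) ↔ (x : J) ∈ primaryPart 𝔪 J := by
  constructor
  · rintro ⟨k, hk⟩
    exact ⟨k, fun t ht => by
      have := congrArg (fun e : nSub T J n => (e : J)) (hk t ht)
      simpa using this⟩
  · rintro ⟨k, hk⟩
    exact ⟨k, fun t ht => Subtype.ext (by simpa using hk t ht)⟩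

variable {𝔪}

/-- Projection to the `𝔪`-primary part inside `J[n]`. -/
theorem exists_projector_n (n : ℕ) [Finite ↥(nSub T J n)] :
    ∃ f : T, (∀ x : J, n • x = 0 → x - f • x ∈ primaryPart 𝔪 J) ∧
      ∀ y ∈ primaryPart 𝔪 J, n • y = 0 → f • y = 0 := by
  obtain ⟨K, f, hs⟩ := exists_isSplit 𝔪 (nSub T J n)
  refine ⟨f, fun x hx => ?_, fun y hyE hy => ?_⟩
  · have := hs.sub_smul_mem_primaryPart ⟨x, hx⟩
    rw [coe_mem_primaryPart_nSub_iff] at this
    simpa using this
  · have h1 : (⟨y, hy⟩ : nSub T J n) ∈ primaryPart 𝔪 (nSub T J n) := by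
      rw [coe_mem_primaryPart_nSub_iff]; exact hyE
    have h2 := (hs.mem_primaryPart_iff _).mp h1
    have := congrArg (fun e : nSub T J n => (e : J)) h2
    simpa using this

/-- **The odd count (abstract).**  If `n` is odd and `J[n]` carries a good pairing, every subgroup
of the primary part of `J[n]` on which `c = -1` has at most `√|E[n]|` elements. -/
theorem card_minus_sq_le {n : ℕ} [NeZero n] (hodd : Odd n) (c : J →ₗ[T] J)
    [Finite ↥(nSub T J n)] (B : J → J → ZMod n)
    (hl : ∀ x x' y : J, n • x = 0 → n • x' = 0 → n • y = 0 → B (x + x') y = B x y + B x' y)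
    (hr : ∀ x y y' : J, n • x = 0 → n • y = 0 → n • y' = 0 → B x (y + y') = B x y + B x y')
    (hnd : ∀ y : J, n • y = 0 → (∀ x : J, n • x = 0 → B x y = 0) → y = 0)
    (hhecke : ∀ (t : T) (x y : J), n • x = 0 → n • y = 0 → B (t • x) y = B x (t • y))
    (hconj : ∀ x y : J, n • x = 0 → n • y = 0 → B (c x) (c y) = - B x y)
    (E Y : AddSubgroup J) (hE : ∀ w, w ∈ E ↔ w ∈ primaryPart 𝔪 J ∧ n • w = 0)
    (hYE : Y ≤ E) (hY : ∀ w ∈ Y, c w = -w) :
    Nat.card ↥Y ^ 2 ≤ Nat.card ↥E := by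
  have hfinE : Finite ↥E :=
    Finite.of_injective (fun x : ↥E => (⟨x, ((hE x).mp x.2).2⟩ : ↥(nSub T J n)))
      (fun a b h => Subtype.ext (congrArg (fun e : ↥(nSub T J n) => (e : J)) h))
  have hEn : ∀ x ∈ E, n • x = 0 := fun x hx => ((hE x).mp hx).2
  have hYn : ∀ y ∈ Y, n • y = 0 := fun y hy => hEn y (hYE hy)
  have hr0 : ∀ x : J, n • x = 0 → B x 0 = 0 := fun x hx => by
    have := hr x 0 0 hx (smul_zero n) (smul_zero n)
    rw [add_zero] at this
    exact left_eq_add.mp this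
  have hl0 : ∀ y : J, n • y = 0 → B 0 y = 0 := fun y hy => by
    have := hl 0 0 y (smul_zero n) (smul_zero n) hy
    rw [add_zero] at this
    exact left_eq_add.mp this
  have hnegl : ∀ x y : J, n • x = 0 → n • y = 0 → B (-x) y = - B x y := fun x y hx hy => by
    have h := hl x (-x) y hx (by rw [smul_neg, hx, neg_zero]) hy
    rw [add_neg_cancel, hl0 y hy] at h
    exact eq_neg_of_add_eq_zero_right h.symm
  have hnegr : ∀ x y : J, n • x = 0 → n • y = 0 → B x (-y) = - B x y := fun x y hx hy => by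
    have h := hr x y (-y) hx hy (by rw [smul_neg, hy, neg_zero])
    rw [add_neg_cancel, hr0 x hx] at h
    exact eq_neg_of_add_eq_zero_right h.symm
  obtain ⟨f, hf1, hf2⟩ := exists_projector_n (T := T) (𝔪 := 𝔪) (J := J) n
  refine card_sq_le_of_isotropic B E Y hYE
    (fun x hx x' hx' y hy => hl x x' y (hEn x hx) (hEn x' hx') (hYn y hy))
    (fun x hx y hy y' hy' => hr x y y' (hEn x hx) (hYn y hy) (hYn y' hy')) ?_ ?_
  · -- isotropy
    intro y hy y' hy'
    have h1 := hconj y y' (hYn y hy) (hYn y' hy')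
    rw [hY y hy, hY y' hy', hnegl _ _ (hYn y hy) (by rw [smul_neg, hYn y' hy', neg_zero]),
      hnegr _ _ (hYn y hy) (hYn y' hy'), neg_neg] at h1
    -- `B y y' = - B y y'` and `n` odd
    have h2 : (2 : ZMod n) * B y y' = 0 := by
      rw [two_mul]
      nth_rewrite 1 [h1]
      exact neg_add_cancel _
    have hu : IsUnit (2 : ZMod n) := by
      have := (ZMod.isUnit_iff_coprime 2 n).mpr (Nat.coprime_two_left.mpr hodd)
      simpa using this
    exact (hu.mul_right_eq_zero).mp h2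
  · -- nondegeneracy on the primary part
    intro y hy hzero
    have hyE := (hE y).mp (hYE hy)
    refine hnd y hyE.2 fun x hx => ?_
    have hfx : n • (f • x) = 0 := by rw [smul_comm, hx, smul_zero]
    have hx'' : x - f • x ∈ E :=
      (hE _).mpr ⟨hf1 x hx, by rw [smul_sub, hx, hfx, sub_zero]⟩
    have h1 := hzero _ hx''
    have h2 := hl (x - f • x) (f • x) y (hEn _ hx'') hfx hyE.2
    rw [sub_add_cancel, h1, zero_add, hhecke f x y hx hyE.2, hf2 y hyE.1 hyE.2, hr0 x hx] at h2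
    exact h2

end Abstract

/-! ## The Eisenstein ideal at a general prime `r` -/

section Good

variable (p : ℕ) [NeZero p] (S : Set ℕ)

attribute [local instance] goodModule

/-- The Eisenstein ideal `(r, T_ℓ - 1 - ℓ : ℓ good)` of the good polynomial ring. -/
def eisIdealR (r : ℕ) : Ideal (GoodAlg p S) :=
  Ideal.span (insert (MvPolynomial.C (r : ℤ)) (Set.range (etaGen p S)))

theorem etaGen_mem_eisIdealR (r : ℕ) (ℓ : GoodPrime p S) : etaGen p S ℓ ∈ eisIdealR p S r :=
  Ideal.subset_span (Set.mem_insert_of_mem _ ⟨ℓ, rfl⟩)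

theorem C_natCast_smul (r : ℕ) (w : JZero p) :
    (MvPolynomial.C (r : ℤ) : GoodAlg p S) • w = r • w := by
  rw [good_smul_def, goodEval_C, Module.End.intCast_apply]
  exact natCast_zsmul w r

theorem finite_nSub_of_finite_tors (n : ℕ) [h : Finite ↥(tors p n)] :
    Finite ↥(nSub (GoodAlg p S) (JZero p) n) :=
  Finite.of_injective
    (fun x : ↥(nSub (GoodAlg p S) (JZero p) n) => (⟨x, x.2⟩ : ↥(tors p n)))
    (fun a b hab => Subtype.ext (congrArg (fun e : ↥(tors p n) => (e : JZero p)) hab))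

theorem isEis_of_mem_primaryPartR {r : ℕ} {w : JZero p}
    (hw : w ∈ primaryPart (eisIdealR p S r) (JZero p)) : IsEis p S w := by
  intro ℓ h1 h2
  obtain ⟨k, hk⟩ := hw
  refine ⟨k, ?_⟩
  have := hk (etaGen p S ⟨ℓ, h1, h2⟩ ^ k)
    (Ideal.pow_mem_pow (etaGen_mem_eisIdealR p S r ⟨ℓ, h1, h2⟩) k)
  rwa [etaGen_pow_smul] at this

theorem mem_primaryPartR_of_isEis {r : ℕ} [Finite ↥(tors p r)] {w : JZero p} (hr : r • w = 0)
    (hw : IsEis p S w) : w ∈ primaryPart (eisIdealR p S r) (JZero p) := by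
  have hfin : Finite ↥(nSub (GoodAlg p S) (JZero p) r) := finite_nSub_of_finite_tors p S r
  obtain ⟨K, f, hs⟩ := exists_isSplit (eisIdealR p S r) (nSub (GoodAlg p S) (JZero p) r)
  have hrad : eisIdealR p S r ≤ (Ideal.torsionOf (GoodAlg p S) (JZero p) w).radical := by
    refine Ideal.span_le.mpr ?_
    rintro g (rfl | ⟨ℓ, rfl⟩)
    · refine Ideal.le_radical ?_
      rw [Ideal.mem_torsionOf_iff, C_natCast_smul, hr]
    · obtain ⟨k, hk⟩ := hw ℓ.1 ℓ.2.1 ℓ.2.2
      refine ⟨k, ?_⟩
      rw [Ideal.mem_torsionOf_iff]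
      exact (etaGen_pow_smul p S ℓ k w).trans hk
  have hf : f ∈ eisIdealR p S r := by
    have := hs.pow_mem 1
    simpa using this
  obtain ⟨n, hn⟩ := hrad hf
  rw [Ideal.mem_torsionOf_iff] at hn
  have hfw : f • (⟨w, hr⟩ : nSub (GoodAlg p S) (JZero p) r) = 0 := by
    rcases Nat.eq_zero_or_pos n with rfl | hnpos
    · rw [pow_zero, one_smul] at hn
      subst hn
      exact Subtype.ext (smul_zero f)
    · rw [← hs.pow_smul _ n hnpos]
      exact Subtype.ext hn
  have := (hs.mem_primaryPart_iff _).mpr hfw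
  rwa [coe_mem_primaryPart_nSub_iff] at this

/-- **The bridge at `r`**: `W_E = eis p S r` is the `r`-torsion of the primary part at the
Eisenstein ideal. -/
theorem mem_eis_iff_mem_primaryPartR {r : ℕ} [Finite ↥(tors p r)] {w : JZero p} :
    w ∈ H975.eis p S r ↔ w ∈ primaryPart (eisIdealR p S r) (JZero p) ∧ r • w = 0 :=
  ⟨fun h => ⟨mem_primaryPartR_of_isEis p S h.1 h.2, h.1⟩,
    fun h => ⟨h.2, isEis_of_mem_primaryPartR p S h.1⟩⟩

/-- Self-adjointness for the generators gives self-adjointness for the whole polynomial ring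
(general modulus). -/
theorem hecke_of_gens_n {n : ℕ} (B : JZero p → JZero p → ZMod n)
    (hl : ∀ x x' y : JZero p, n • x = 0 → n • x' = 0 → n • y = 0 →
      B (x + x') y = B x y + B x' y)
    (hr : ∀ x y y' : JZero p, n • x = 0 → n • y = 0 → n • y' = 0 →
      B x (y + y') = B x y + B x y')
    (hgen : ∀ ℓ : GoodPrime p S, ∀ x y : JZero p, n • x = 0 → n • y = 0 →
      B (heckeOperatorBar p ℓ.1 x) y = B x (heckeOperatorBar p ℓ.1 y))
    (t : GoodAlg p S) : ∀ x y : JZero p, n • x = 0 → n • y = 0 → B (t • x) y = B x (t • y) := by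
  have hsm : ∀ (u : GoodAlg p S) (x : JZero p), n • x = 0 → n • (u • x) = 0 :=
    fun u x hx => by rw [smul_comm, hx, smul_zero]
  have hL : ∀ y : JZero p, n • y = 0 →
      ∃ φ : ↥(tors p n) →+ ZMod n, ∀ x, φ x = B x y :=
    fun y hy => ⟨AddMonoidHom.mk' (fun x => B x y) (fun a b => hl a b y a.2 b.2 hy), fun _ => rfl⟩
  have hR : ∀ x : JZero p, n • x = 0 →
      ∃ φ : ↥(tors p n) →+ ZMod n, ∀ y, φ y = B x y :=
    fun x hx => ⟨AddMonoidHom.mk' (fun y => B x y) (fun a b => hr x a b hx a.2 b.2), fun _ => rfl⟩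
  induction t using MvPolynomial.induction_on with
  | C a =>
    intro x y hx hy
    have e1 : (MvPolynomial.C a : GoodAlg p S) • x = a • x := by
      rw [good_smul_def, goodEval_C, Module.End.intCast_apply]
    have e2 : (MvPolynomial.C a : GoodAlg p S) • y = a • y := by
      rw [good_smul_def, goodEval_C, Module.End.intCast_apply]
    rw [e1, e2]
    obtain ⟨φ, hφ⟩ := hL y hy
    obtain ⟨ψ, hψ⟩ := hR x hx
    have h1 := hφ (a • ⟨x, hx⟩)
    have h2 := hψ (a • ⟨y, hy⟩)
    rw [map_zsmul, hφ] at h1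
    rw [map_zsmul, hψ] at h2
    have c1 : ((a • (⟨x, hx⟩ : ↥(tors p n)) : ↥(tors p n)) : JZero p) = a • x := rfl
    have c2 : ((a • (⟨y, hy⟩ : ↥(tors p n)) : ↥(tors p n)) : JZero p) = a • y := rfl
    rw [c1] at h1
    rw [c2] at h2
    rw [← h1, ← h2]
  | add u v hu hv =>
    intro x y hx hy
    rw [add_smul, add_smul, hl _ _ y (hsm u x hx) (hsm v x hx) hy,
      hr x _ _ hx (hsm u y hy) (hsm v y hy), hu x y hx hy, hv x y hx hy]
  | mul_X u ℓ hu =>
    intro x y hx hy
    have eX : ∀ z : JZero p, (MvPolynomial.X ℓ : GoodAlg p S) • z = heckeOperatorBar p ℓ.1 z :=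
      fun z => by rw [good_smul_def, goodEval_X]
    have hXx : n • heckeOperatorBar p ℓ.1 x = 0 := by
      rw [← eX]; exact hsm _ x hx
    rw [mul_smul, eX, hu _ y hXx hy, hgen ℓ x _ hx (hsm u y hy), ← eX, ← mul_smul, mul_comm]

end Good

/-! ## COUNT -/

/-- The pairing on `J₀(p)[n]` in the form used below. -/
theorem exists_pairing (hPair : PairStatement) (p : ℕ) [NeZero p] (hp : p.Prime) (S : Set ℕ)
    (n : ℕ) (hn : 0 < n) :
    letI := goodModule p S
    ∃ B : JZero p → JZero p → ZMod n,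
      (∀ x x' y : JZero p, n • x = 0 → n • x' = 0 → n • y = 0 →
        B (x + x') y = B x y + B x' y) ∧
      (∀ x y y' : JZero p, n • x = 0 → n • y = 0 → n • y' = 0 →
        B x (y + y') = B x y + B x y') ∧
      (∀ y : JZero p, n • y = 0 → (∀ x : JZero p, n • x = 0 → B x y = 0) → y = 0) ∧
      (∀ (t : GoodAlg p S) (x y : JZero p), n • x = 0 → n • y = 0 →
        B (t • x) y = B x (t • y)) ∧
      (∀ x y : JZero p, n • x = 0 → n • y = 0 →
        B (complexConjugation • x) (complexConjugation • y) = - B x y) := by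
  letI := goodModule p S
  obtain ⟨B, h1, h2, h3, h4, h5⟩ := hPair p n hn
  refine ⟨B, h1, h2, h3, fun t => hecke_of_gens_n p S B h1 h2 (fun ℓ x y hx hy => ?_) t, h5⟩
  refine h4 ℓ.1 (fun hdvd => ℓ.2.1 ?_) x y hx hy
  exact (Nat.prime_dvd_prime_iff_eq ℓ.1.2 hp).mp hdvd

/-- **COUNT at `r = 2`.** -/
theorem count_two (hDiv : DivStatement) (hFin : FinStatement) (hPair : PairStatement)
    (p : ℕ) [NeZero p] (hp : p.Prime) (S : Finset ℕ) :
    Nat.card ↥(cocImage p (S : Set ℕ) 2 complexConjugation) ^ 2 ≤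
      Nat.card ↥(H975.eis p (S : Set ℕ) 2) := by
  letI : Module (GoodAlg p (S : Set ℕ)) (JZero p) := goodModule p (S : Set ℕ)
  have hfinT : ∀ k, Finite ↥(tors p (2 ^ k)) := fun k => hFin p (2 ^ k) (by positivity)
  have hfin : ∀ k, Finite ↥(tk (JZero p) k) := fun k =>
    haveI := hfinT k
    finite_tk_of_finite_tors p k
  haveI := hfinT 1
  haveI := hfin 2
  haveI := hfin 1
  have hdiv : ∀ x : JZero p, ∃ y : JZero p, 2 • y = x := hDiv p hp 2 Nat.prime_two
  have hc := ccLin_ccLin p (S : Set ℕ)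
  have hpair : ∀ k, ∃ B : JZero p → JZero p → ZMod (2 ^ k),
      IsGoodPairing (GoodAlg p (S : Set ℕ)) (ccLin p (S : Set ℕ)) k B := by
    intro k
    obtain ⟨B, h1, h2, h3, h4, h5⟩ := exists_pairing hPair p hp (S : Set ℕ) (2 ^ k) (by positivity)
    exact ⟨B, fun x hx x' hx' y hy => h1 x x' y (mem_tk.mp hx) (mem_tk.mp hx') (mem_tk.mp hy),
      fun x hx y hy y' hy' => h2 x y y' (mem_tk.mp hx) (mem_tk.mp hy) (mem_tk.mp hy'),
      fun y hy h => h3 y (mem_tk.mp hy) fun x hx => h x (mem_tk.mpr hx),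
      fun t x hx y hy => h4 t x y (mem_tk.mp hx) (mem_tk.mp hy),
      fun x hx y hy => h5 x y (mem_tk.mp hx) (mem_tk.mp hy)⟩
  have hcard := card_uoo_sq_le (𝔪 := eisIdeal p (S : Set ℕ)) (ccLin p (S : Set ℕ)) hc hdiv hfin
    hpair
  have heq : H975.eis p (S : Set ℕ) 2 =
      H111.eis (eisIdeal p (S : Set ℕ)) (JZero p) ⊓ tk (JZero p) 1 :=
    AddSubgroup.ext fun w => mem_eis_iff_mem_primaryPart p (S : Set ℕ)
  have hle : cocImage p (S : Set ℕ) 2 complexConjugation ≤
      uoo (eisIdeal p (S : Set ℕ)) (ccLin p (S : Set ℕ)) := by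
    rintro w ⟨y, ⟨hy1, hy2⟩, rfl⟩
    have hyE : ccLin p (S : Set ℕ) y - y ∈ primaryPart (eisIdeal p (S : Set ℕ)) (JZero p) :=
      ((mem_eis_iff_mem_primaryPart p (S : Set ℕ)).mp (hy2 complexConjugation)).1
    exact sub_mem_uoo (𝔪 := eisIdeal p (S : Set ℕ)) (ccLin p (S : Set ℕ)) hc hdiv y
      (hy1 complexConjugation) hyE
  have hfinU : Finite ↥(uoo (eisIdeal p (S : Set ℕ)) (ccLin p (S : Set ℕ))) :=
    Finite.of_injective
      (fun x : ↥(uoo (eisIdeal p (S : Set ℕ)) (ccLin p (S : Set ℕ))) =>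
        (⟨x, (AddSubgroup.mem_inf.mp x.2).2⟩ : ↥(tk (JZero p) 1)))
      (fun a b h => Subtype.ext (congrArg (fun e : ↥(tk (JZero p) 1) => (e : JZero p)) h))
  have hcardle : Nat.card ↥(cocImage p (S : Set ℕ) 2 complexConjugation) ≤
      Nat.card ↥(uoo (eisIdeal p (S : Set ℕ)) (ccLin p (S : Set ℕ))) :=
    Nat.card_le_card_of_injective (fun x => (⟨x, hle x.2⟩ :
        ↥(uoo (eisIdeal p (S : Set ℕ)) (ccLin p (S : Set ℕ)))))
      (fun a b h => Subtype.ext (congrArg
        (fun e : ↥(uoo (eisIdeal p (S : Set ℕ)) (ccLin p (S : Set ℕ))) => (e : JZero p)) h))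
  rw [heq]
  exact (Nat.pow_le_pow_left hcardle 2).trans hcard

/-- **COUNT at an odd prime `r`.** -/
theorem count_odd (hFin : FinStatement) (hPair : PairStatement)
    (p : ℕ) [NeZero p] (hp : p.Prime) (S : Finset ℕ) (r : ℕ) (hr : r.Prime) (hr2 : r ≠ 2) :
    Nat.card ↥(cocImage p (S : Set ℕ) r complexConjugation) ^ 2 ≤
      Nat.card ↥(H975.eis p (S : Set ℕ) r) := by
  letI : Module (GoodAlg p (S : Set ℕ)) (JZero p) := goodModule p (S : Set ℕ)
  haveI : NeZero r := ⟨hr.ne_zero⟩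
  haveI hfinT : Finite ↥(tors p r) := hFin p r hr.pos
  haveI : Finite ↥(nSub (GoodAlg p (S : Set ℕ)) (JZero p) r) :=
    finite_nSub_of_finite_tors p (S : Set ℕ) r
  obtain ⟨B, h1, h2, h3, h4, h5⟩ := exists_pairing hPair p hp (S : Set ℕ) r hr.pos
  refine card_minus_sq_le (𝔪 := eisIdealR p (S : Set ℕ) r) (hr.odd_of_ne_two hr2)
    (ccLin p (S : Set ℕ)) B h1 h2 h3 h4 h5 (H975.eis p (S : Set ℕ) r)
    (cocImage p (S : Set ℕ) r complexConjugation)
    (fun w => mem_eis_iff_mem_primaryPartR p (S : Set ℕ))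
    (cocImage_le p (S : Set ℕ) r complexConjugation) ?_
  rintro w ⟨y, -, rfl⟩
  show complexConjugation • (complexConjugation • y - y) = -(complexConjugation • y - y)
  rw [smul_sub, smul_smul, complexConjugation_mul_self, one_smul]
  abel

/-- **COUNT** (the official node) from DIV, FIN and PAIR. -/
theorem countStatement_of_pair (hDiv : DivStatement) (hFin : FinStatement)
    (hPair : PairStatement) : CountStatement := by
  intro p _ hp S r hr _
  rcases eq_or_ne r 2 with rfl | hr2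
  · exact count_two hDiv hFin hPair p hp S
  · exact count_odd hFin hPair p hp S r hr hr2

/-- **COUNT from CONJ** (weak form), DIV and FIN. -/
theorem countStatement_of_conjWeak (hDiv : DivStatement) (hFin : FinStatement)
    (hC : ConjWeakStatement) : CountStatement :=
  countStatement_of_pair hDiv hFin (pairStatement_of_conjWeak hC)

/-- **COUNT from CONJ**, DIV and FIN. -/
theorem countStatement_of_conj (hDiv : DivStatement) (hFin : FinStatement)
    (hC : ConjStatement) : CountStatement :=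
  countStatement_of_pair hDiv hFin (pairStatement_of_conj hC)

end Fermat.Agent.S15.H111

end
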