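/-
Row S15, node DESC, tower COUNT (helper111): the official node `H975.CountStatement`,
UNCONDITIONAL.

    count : H975.CountStatement        (real place, all primes `r` including `r = 2`, all `S`)

Assembly of `H111/CountAll.lean` (`countStatement_of_conj`) with
* CONJ  : `S15.H337.kumConj` (helper337), transported from the Prelude's `jConjGamma0` to
          `H221.gamma0Eps` (the same map);
* DIV   : `S17.GDiv.divisible` (row S17);
* FIN   : `H975.finStatement`.
-/
import Fermat.Agent.S15.H111.CountAll
import Fermat.Agent.S15.H337.KumConj
import Fermat.Agent.S15.H975.DescTop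
import Fermat.Agent.S17.GDiv.Final

set_option autoImplicit false

noncomputable section

namespace Fermat.Agent.S15.H111

open ModularCurve CongruenceSubgroup Fermat.Agent.S15.H975
open scoped MatrixGroups

/-- The Prelude's `jConjGamma0` is `Ad ε` of `H221`. -/
theorem jConjGamma0_eq_gamma0Eps (N : ℕ) (γ : Gamma0 N) :
    ModularCurve.Period.jConjGamma0 N γ = Fermat.Agent.S15.H221.gamma0Eps N γ :=
  Subtype.ext (Subtype.ext rfl)

/-- **CONJ** in the shape of `H111/PairDict.lean`. -/
theorem conjStatement : ConjStatement := by
  intro N m _ _ c x hk
  have h := Fermat.Agent.S15.H337.kumConj N m c x hk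
  have e : (fun γ : Fermat.Agent.S29.G0 N => - c (ModularCurve.Period.jConjGamma0 N γ)) =
      fun g => - c (Fermat.Agent.S15.H221.gamma0Eps N g) := by
    funext γ
    rw [jConjGamma0_eq_gamma0Eps]
  rwa [e] at h

/-- **PAIR**, unconditional. -/
theorem pairStatement : PairStatement := pairStatement_of_conj conjStatement

/-- **DIV** from row S17. -/
theorem divStatement : DivStatement := fun p _ _ r hr x =>
  Fermat.Agent.S17.GDiv.divisible p r hr.ne_zero x

/-- **COUNT**: the official node, unconditional. -/
theorem count : CountStatement :=
  countStatement_of_conj divStatement finStatement conjStatement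

end Fermat.Agent.S15.H111

end
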